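import Mathlib

/-!
# S31 (helper69): saturation

`exists_sat_const` : a noncommutative polynomial in Hecke operators that is divisible by
`p ^ (n + c)` on a lattice is, up to a multiplier prime to `p`, divisible by `p ^ n` on the forms
whose periods are spanned by the lattice.
-/

set_option autoImplicit false

namespace Fermat.Agent.S31.H69

open Module

section Sat

/-- In a finitely generated `ℤ`-module, the saturation of a submodule is killed into the submodule
by one nonzero integer. -/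
theorem exists_sat_exponent {E : Type*} [AddCommGroup E] [Module.Finite ℤ E]
    (R : Submodule ℤ E) :
    ∃ e0 : ℕ, e0 ≠ 0 ∧ ∀ x : E, (∃ k : ℤ, k ≠ 0 ∧ k • x ∈ R) → (e0 : ℤ) • x ∈ R := by
  classical
  let Sat : Submodule ℤ E :=
    { carrier := {x | ∃ k : ℤ, k ≠ 0 ∧ k • x ∈ R}
      zero_mem' := ⟨1, one_ne_zero, by simp⟩
      add_mem' := by
        rintro x y ⟨k1, hk1, h1⟩ ⟨k2, hk2, h2⟩
        refine ⟨k1 * k2, mul_ne_zero hk1 hk2, ?_⟩
        have : (k1 * k2) • (x + y) = k2 • (k1 • x) + k1 • (k2 • y) := by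
          rw [smul_add, smul_smul, smul_smul, mul_comm k2 k1]
        rw [this]
        exact R.add_mem (R.smul_mem _ h1) (R.smul_mem _ h2)
      smul_mem' := by
        rintro c x ⟨k, hk, h⟩
        refine ⟨k, hk, ?_⟩
        rw [smul_comm]
        exact R.smul_mem _ h }
  have hfg : Sat.FG := IsNoetherian.noetherian Sat
  obtain ⟨s, hs⟩ := hfg
  have hsat : ∀ x ∈ s, ∃ k : ℤ, k ≠ 0 ∧ k • x ∈ R := by
    intro x hx
    have : x ∈ Sat := hs ▸ Submodule.subset_span hx
    exact this
  let k : E → ℤ := fun x => if h : ∃ k : ℤ, k ≠ 0 ∧ k • x ∈ R then h.choose else 1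
  have hk0 : ∀ x, k x ≠ 0 := by
    intro x
    by_cases h : ∃ k : ℤ, k ≠ 0 ∧ k • x ∈ R
    · simp only [k, dif_pos h]; exact h.choose_spec.1
    · simp only [k, dif_neg h]; exact one_ne_zero
  have hkR : ∀ x ∈ s, k x • x ∈ R := by
    intro x hx
    have h := hsat x hx
    simp only [k, dif_pos h]
    exact h.choose_spec.2
  set e : ℤ := ∏ x ∈ s, k x with he
  have he0 : e ≠ 0 := Finset.prod_ne_zero_iff.mpr fun x _ => hk0 x
  have hall : ∀ x ∈ Sat, e • x ∈ R := by
    intro x hx
    rw [← hs] at hx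
    refine Submodule.span_induction ?_ ?_ ?_ ?_ hx
    · intro y hy
      have : e = (∏ z ∈ s.erase y, k z) * k y := by
        rw [he, ← Finset.prod_erase_mul s k hy]
      rw [this, mul_smul]
      exact R.smul_mem _ (hkR y hy)
    · simp
    · intro y z _ _ hy hz
      rw [smul_add]; exact R.add_mem hy hz
    · intro c y _ hy
      rw [smul_comm]; exact R.smul_mem _ hy
  refine ⟨e.natAbs, Int.natAbs_ne_zero.mpr he0, fun x hx => ?_⟩
  have h1 := hall x hx
  rcases Int.natAbs_eq e with h | h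
  · rw [← h]; exact h1
  · have : ((e.natAbs : ℕ) : ℤ) = -e := by rw [h]; simp
    rw [this, neg_smul]
    exact R.neg_mem h1

variable {I : Type*} {Λ : Type*} [AddCommGroup Λ] [Module.Finite ℤ Λ] [Module.Free ℤ Λ]
  {X : Type*} [AddCommGroup X] [Module ℂ X]
  {S2 : Type*} [AddCommGroup S2] [Module ℂ S2]

/-- Transfer of a polynomial identity from the lattice to the forms. -/
theorem lift_eq_zero_of_lattice (tΛ : I → Module.End ℤ Λ) (tX : I → Module.End ℂ X)
    (T : I → Module.End ℂ S2) (ι : Λ →+ X) (per : S2 →ₗ[ℂ] X) (hper : Function.Injective per)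
    (hspan : ∀ f, per f ∈ Submodule.span ℂ (Set.range ι))
    (hι : ∀ i x, ι (tΛ i x) = tX i (ι x)) (hperT : ∀ i f, per (T i f) = tX i (per f))
    (Z : FreeAlgebra ℤ I) (hZ : FreeAlgebra.lift ℤ tΛ Z = 0) : FreeAlgebra.lift ℤ T Z = 0 := by
  have h1 : ∀ (Z : FreeAlgebra ℤ I) (x : Λ),
      ι (FreeAlgebra.lift ℤ tΛ Z x) = FreeAlgebra.lift ℤ tX Z (ι x) := by
    intro Z
    induction Z using FreeAlgebra.induction with
    | grade0 r =>
      intro x
      rw [AlgHom.commutes, AlgHom.commutes, Algebra.algebraMap_eq_smul_one,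
        Algebra.algebraMap_eq_smul_one, LinearMap.smul_apply, LinearMap.smul_apply,
        Module.End.one_apply, Module.End.one_apply, map_zsmul]
    | grade1 i => intro x; rw [FreeAlgebra.lift_ι_apply, FreeAlgebra.lift_ι_apply, hι]
    | mul a b ha hb =>
      intro x
      rw [map_mul, map_mul, Module.End.mul_apply, Module.End.mul_apply, ha, hb]
    | add a b ha hb =>
      intro x
      rw [map_add, map_add, LinearMap.add_apply, LinearMap.add_apply, map_add, ha, hb]
  have h2 : ∀ (Z : FreeAlgebra ℤ I) (f : S2),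
      per (FreeAlgebra.lift ℤ T Z f) = FreeAlgebra.lift ℤ tX Z (per f) := by
    intro Z
    induction Z using FreeAlgebra.induction with
    | grade0 r =>
      intro f
      rw [AlgHom.commutes, AlgHom.commutes, Algebra.algebraMap_eq_smul_one,
        Algebra.algebraMap_eq_smul_one, LinearMap.smul_apply, LinearMap.smul_apply,
        Module.End.one_apply, Module.End.one_apply, map_zsmul]
    | grade1 i => intro f; rw [FreeAlgebra.lift_ι_apply, FreeAlgebra.lift_ι_apply, hperT]
    | mul a b ha hb =>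
      intro f
      rw [map_mul, map_mul, Module.End.mul_apply, Module.End.mul_apply, ha, hb]
    | add a b ha hb =>
      intro f
      rw [map_add, map_add, LinearMap.add_apply, LinearMap.add_apply, map_add, ha, hb]
  have h3 : ∀ y ∈ Submodule.span ℂ (Set.range ι), FreeAlgebra.lift ℤ tX Z y = 0 := by
    intro y hy
    refine Submodule.span_induction ?_ ?_ ?_ ?_ hy
    · rintro _ ⟨x, rfl⟩
      rw [← h1, hZ, LinearMap.zero_apply, map_zero]
    · simp
    · intro a b _ _ ha hb; rw [map_add, ha, hb, add_zero]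
    · intro c a _ ha; rw [map_smul, ha, smul_zero]
  ext f
  apply hper
  rw [h2, h3 _ (hspan f), LinearMap.zero_apply, map_zero]

/-- **Saturation / faithfulness.** There is a constant `c` such that every noncommutative
polynomial `P` in the Hecke operators which is divisible by `p ^ (n + c)` on the lattice is, up
to a multiplier prime to `p`, divisible by `p ^ n` on the forms. -/
theorem exists_sat_const (tΛ : I → Module.End ℤ Λ) (tX : I → Module.End ℂ X)
    (T : I → Module.End ℂ S2) (ι : Λ →+ X) (per : S2 →ₗ[ℂ] X) (hper : Function.Injective per)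
    (hspan : ∀ f, per f ∈ Submodule.span ℂ (Set.range ι))
    (hι : ∀ i x, ι (tΛ i x) = tX i (ι x)) (hperT : ∀ i f, per (T i f) = tX i (per f))
    (p : ℕ) (hp : p.Prime) :
    ∃ c : ℕ, ∀ (n : ℕ) (P : FreeAlgebra ℤ I),
      (∀ x : Λ, ∃ y : Λ, FreeAlgebra.lift ℤ tΛ P x = ((p : ℤ) ^ (n + c)) • y) →
      ∃ (e : ℤ) (Q : FreeAlgebra ℤ I), IsCoprime e (p : ℤ) ∧
        e • FreeAlgebra.lift ℤ T P = ((p : ℤ) ^ n) • FreeAlgebra.lift ℤ T Q := by
  classical
  obtain ⟨e0, he0, hsat⟩ := exists_sat_exponent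
    (Subalgebra.toSubmodule (FreeAlgebra.lift ℤ tΛ).range)
  obtain ⟨c, e', he', hee⟩ := Nat.exists_eq_pow_mul_and_not_dvd he0 p hp.ne_one
  refine ⟨c, fun n P hP => ?_⟩
  let b := Module.Free.chooseBasis ℤ Λ
  choose y hy using hP
  let E : Module.End ℤ Λ := b.constr ℤ fun i => y (b i)
  have hE : ((p : ℤ) ^ (n + c)) • E = FreeAlgebra.lift ℤ tΛ P := by
    refine b.ext fun i => ?_
    rw [LinearMap.smul_apply, Basis.constr_basis, hy]
  have hEsat : ((e0 : ℕ) : ℤ) • E ∈ Subalgebra.toSubmodule (FreeAlgebra.lift ℤ tΛ).range := by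
    refine hsat E ⟨(p : ℤ) ^ (n + c), pow_ne_zero _ (by exact_mod_cast hp.ne_zero), ?_⟩
    rw [hE]
    exact ⟨P, rfl⟩
  obtain ⟨Q0, hQ0⟩ := hEsat
  refine ⟨(e' : ℤ), Q0, ?_, ?_⟩
  · exact Nat.isCoprime_iff_coprime.mpr ((Nat.Prime.coprime_iff_not_dvd hp).mpr he').symm
  · have hZ : FreeAlgebra.lift ℤ tΛ ((e' : ℤ) • P - ((p : ℤ) ^ n) • Q0) = 0 := by
      have hQ0' : FreeAlgebra.lift ℤ tΛ Q0 = ((e0 : ℕ) : ℤ) • E := hQ0
      rw [map_sub, map_zsmul, map_zsmul, hQ0', ← hE, smul_smul, smul_smul, hee]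
      push_cast
      rw [sub_eq_zero]
      congr 1
      ring
    have h := lift_eq_zero_of_lattice tΛ tX T ι per hper hspan hι hperT _ hZ
    rw [map_sub, map_zsmul, map_zsmul, sub_eq_zero] at h
    exact h

end Sat

end Fermat.Agent.S31.H69
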