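import Mathlib
import Fermat.Prelude.Def_CuspForm_HeckeGaloisRepDatum
import Fermat.Agent.S29.Stmts_helper27
import Fermat.Agent.S29.PeriodHecke_helper6
import Fermat.Agent.S29.EigenRed_helper13
import Fermat.Agent.S29.Lat_helper89
import Fermat.Agent.S21.Injective_helper25
import Fermat.Agent.S21.Parabolic_helper23
import Fermat.Agent.S31.Sat_helper69

/-!
# S31, layer 2a (helper69): the lattice `Hom_par(Γ₀(N), ℤ)`, its Hecke transfers, and saturation

* `TrHom N` / `TrPar N` : the two transfer leaves (existence of the Hecke transfer of a character,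
  and preservation of parabolic characters) as named hypotheses.
* `exists_basis_lam` : `Hom_par(Γ₀(N), ℤ)` is free of finite rank.
* `exists_trLam` / `exists_trX` : the transfer as an endomorphism of the lattice / of the complex
  characters.
* `pml_injective`, `pml_mem_span` : the period map is injective with image in the span of the
  lattice.
* `exists_sat_lam` : the saturation constant for the Hecke operators `T_ℓ`, `ℓ ∤ N`, `ℓ ∉ S`.
-/

set_option autoImplicit false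

namespace Fermat.Agent.S31.H69

open ModularCurve ModularCurve.Period CongruenceSubgroup
open Fermat.Agent.S29 Fermat.Agent.S21
open scoped MatrixGroups

/-- (TR-HOM) every additive character of `Γ₀(N)` has a Hecke transfer at `ℓ ∤ N`. -/
def TrHom (N : ℕ) : Prop :=
  ∀ (ℓ : ℕ), ℓ.Prime → ¬ ℓ ∣ N → ∀ (A : Type) [AddCommGroup A] (χ : Additive (Gamma0 N) →+ A),
    ∃ χ' : Additive (Gamma0 N) →+ A, H06.IsHeckeTr N ℓ χ χ'

/-- (TR-PAR) the Hecke transfer of a parabolic integral character is parabolic. -/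
def TrPar (N : ℕ) : Prop :=
  ∀ (ℓ : ℕ), ℓ.Prime → ¬ ℓ ∣ N → ∀ χ χ' : Additive (Gamma0 N) →+ ℤ,
    H06.IsHeckeTr N ℓ χ χ' → IsParabolicHom (Gamma0 N) χ → IsParabolicHom (Gamma0 N) χ'

section Lattice

variable (N : ℕ) [NeZero N]

theorem addGroup_fg_gamma0 : AddGroup.FG (Additive (Gamma0 N)) := by
  have := H13.gamma0_fg N
  infer_instance

/-- The parabolic elements of `Γ₀(N)`, additively. -/
def parSet : Set (Additive (Gamma0 N)) :=
  {g | (((Additive.toMul g : Gamma0 N) : SL(2, ℤ)) : Matrix (Fin 2) (Fin 2) ℤ).trace ^ 2 = 4}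

omit [NeZero N] in
theorem parLattice_eq : H89.parLattice (parSet N) = H27.Lam N := by
  ext χ
  constructor
  · intro h γ hγ
    exact h (Additive.ofMul γ) hγ
  · intro h g hg
    exact h (Additive.toMul g) hg

theorem exists_basis_lam : ∃ m : ℕ, Nonempty (Module.Basis (Fin m) ℤ (H27.Lam N)) := by
  have := addGroup_fg_gamma0 N
  obtain ⟨m, ⟨b⟩⟩ := H89.exists_basis_parLattice (parSet N)
  exact ⟨m, ⟨b.map (LinearEquiv.ofEq _ _ (parLattice_eq N))⟩⟩

omit [NeZero N] in
theorem isHeckeTr_smul {ℓ : ℕ} {χ χ' : Additive (Gamma0 N) →+ ℂ}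
    (h : H06.IsHeckeTr N ℓ χ χ') (c : ℂ) : H06.IsHeckeTr N ℓ (c • χ) (c • χ') := by
  intro γ σ g' hd
  simp only [AddMonoidHom.smul_apply, ← Finset.smul_sum, h γ σ g' hd]

omit [NeZero N] in
/-- The Hecke transfer as an endomorphism of `Hom_par(Γ₀(N), ℤ)`. -/
theorem exists_trLam (TH : TrHom N) (TP : TrPar N) {ℓ : ℕ} (hℓ : ℓ.Prime) (hℓN : ¬ ℓ ∣ N) :
    ∃ t : Module.End ℤ (H27.Lam N), ∀ χ : H27.Lam N,
      H06.IsHeckeTr N ℓ (χ : Additive (Gamma0 N) →+ ℤ)
        ((t χ : H27.Lam N) : Additive (Gamma0 N) →+ ℤ) := by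
  classical
  choose f hf using fun χ : Additive (Gamma0 N) →+ ℤ => TH ℓ hℓ hℓN ℤ χ
  refine ⟨{ toFun := fun χ => ⟨f χ.1, TP ℓ hℓ hℓN χ.1 (f χ.1) (hf χ.1) χ.2⟩
            map_add' := ?_
            map_smul' := ?_ }, fun χ => hf χ.1⟩
  · intro χ₁ χ₂
    apply Subtype.ext
    exact H06.IsHeckeTr.unique hℓ hℓN (hf _) ((hf χ₁.1).add (hf χ₂.1))
  · intro c χ
    apply Subtype.ext
    exact H06.IsHeckeTr.unique hℓ hℓN (hf _) ((hf χ.1).zsmul c)

omit [NeZero N] in
/-- The Hecke transfer as an endomorphism of the complex characters. -/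
theorem exists_trX (TH : TrHom N) {ℓ : ℕ} (hℓ : ℓ.Prime) (hℓN : ¬ ℓ ∣ N) :
    ∃ t : Module.End ℂ (Additive (Gamma0 N) →+ ℂ),
      ∀ χ : Additive (Gamma0 N) →+ ℂ, H06.IsHeckeTr N ℓ χ (t χ) := by
  classical
  choose f hf using fun χ : Additive (Gamma0 N) →+ ℂ => TH ℓ hℓ hℓN ℂ χ
  refine ⟨{ toFun := f
            map_add' := ?_
            map_smul' := ?_ }, hf⟩
  · intro χ₁ χ₂
    exact H06.IsHeckeTr.unique hℓ hℓN (hf _) ((hf χ₁).add (hf χ₂))
  · intro c χ
    exact H06.IsHeckeTr.unique hℓ hℓN (hf _) (isHeckeTr_smul N (hf χ) c)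

/-- Integer-valued parabolic characters as complex-valued characters. -/
def lamToC : H27.Lam N →+ (Additive (Gamma0 N) →+ ℂ) where
  toFun χ := (Int.castAddHom ℂ).comp (χ : Additive (Gamma0 N) →+ ℤ)
  map_zero' := by
    ext g
    simp
  map_add' χ₁ χ₂ := by
    ext g
    simp

omit [NeZero N] in
theorem lamToC_apply (χ : H27.Lam N) (g : Additive (Gamma0 N)) :
    lamToC N χ g = (((χ : Additive (Gamma0 N) →+ ℤ) g : ℤ) : ℂ) := rfl

theorem pml_injective : Function.Injective (H25.pml N) := by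
  rw [injective_iff_map_eq_zero]
  intro f hf
  have hf' : periodMap N f = 0 := hf
  have h1 : periodHomPair N (f, f) = 0 := by
    refine AddMonoidHom.ext fun γ => ?_
    obtain ⟨γ, rfl⟩ := Additive.ofMul.surjective γ
    rw [H25.periodHomPair_apply, hf']
    simp
  have h2 : (f, f) = (0 : CuspForm (Gamma0 N) 2 × CuspForm (Gamma0 N) 2) :=
    H25.periodHomPair_injective N (h1.trans (map_zero _).symm)
  exact (Prod.ext_iff.mp h2).1

theorem pml_mem_span (f : CuspForm (Gamma0 N) 2) :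
    H25.pml N f ∈ Submodule.span ℂ (Set.range (lamToC N)) := by
  have := addGroup_fg_gamma0 N
  have hpar := H23.periodMap_mem_parabolicHoms N f
  obtain ⟨r, u, χ, hχ, hP⟩ := H89.exists_decomp_hom (parSet N) (periodMap N f)
    (fun g hg => hpar (Additive.toMul g) hg)
  have hχ' : ∀ l, χ l ∈ H27.Lam N := fun l => (parLattice_eq N) ▸ hχ l
  have e : H25.pml N f = ∑ l, u l • lamToC N ⟨χ l, hχ' l⟩ := by
    refine AddMonoidHom.ext fun g => ?_
    rw [H25.pml_apply, hP g, AddMonoidHom.finsetSum_apply]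
    refine Finset.sum_congr rfl fun l _ => ?_
    rw [AddMonoidHom.smul_apply, lamToC_apply, smul_eq_mul, mul_comm]
  rw [e]
  exact Submodule.sum_mem _ fun l _ =>
    Submodule.smul_mem _ _ (Submodule.subset_span ⟨_, rfl⟩)

end Lattice

section Sat

variable (N : ℕ) [NeZero N]

/-- The index set of the Hecke operators: primes not dividing `N` outside `S`. -/
abbrev Idx (N : ℕ) (S : Finset ℕ) : Type :=
  {ℓ : ℕ // ℓ.Prime ∧ ¬ ℓ ∣ N ∧ ℓ ∉ (↑S : Set ℕ)}

/-- The Hecke operators on cusp forms indexed by `Idx N S`. -/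
noncomputable def tForm (S : Finset ℕ) (i : Idx N S) :
    Module.End ℂ (CuspForm (Gamma0 N) 2) :=
  CuspForm.heckeTLin 2 i.2.1 i.2.2.1

/-- **Saturation for the transfer operators on the lattice.** -/
theorem exists_sat_lam (TH : TrHom N) (TP : TrPar N) (S : Finset ℕ) (p : ℕ) (hp : p.Prime) :
    ∃ tΛ : Idx N S → Module.End ℤ (H27.Lam N),
      (∀ (i : Idx N S) (χ : H27.Lam N),
        H06.IsHeckeTr N i.1 (χ : Additive (Gamma0 N) →+ ℤ)
          ((tΛ i χ : H27.Lam N) : Additive (Gamma0 N) →+ ℤ)) ∧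
      ∃ c : ℕ, ∀ (n : ℕ) (P : FreeAlgebra ℤ (Idx N S)),
        (∀ x : H27.Lam N, ∃ y : H27.Lam N,
          FreeAlgebra.lift ℤ tΛ P x = ((p : ℤ) ^ (n + c)) • y) →
        ∃ (e : ℤ) (Q : FreeAlgebra ℤ (Idx N S)), IsCoprime e (p : ℤ) ∧
          e • FreeAlgebra.lift ℤ (tForm N S) P = ((p : ℤ) ^ n) • FreeAlgebra.lift ℤ (tForm N S) Q := by
  classical
  obtain ⟨m, ⟨b⟩⟩ := exists_basis_lam N
  have : Module.Finite ℤ (H27.Lam N) := Module.Finite.of_basis b
  have : Module.Free ℤ (H27.Lam N) := Module.Free.of_basis b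
  choose tΛ htΛ using fun i : Idx N S => exists_trLam N TH TP i.2.1 i.2.2.1
  choose tX htX using fun i : Idx N S => exists_trX N TH i.2.1 i.2.2.1
  refine ⟨tΛ, htΛ, ?_⟩
  refine exists_sat_const tΛ tX (tForm N S) (lamToC N) (H25.pml N) (pml_injective N)
    (pml_mem_span N) ?_ ?_ p hp
  · intro i x
    exact H06.IsHeckeTr.unique i.2.1 i.2.2.1 ((htΛ i x).comp (Int.castAddHom ℂ)) (htX i _)
  · intro i f
    exact H06.IsHeckeTr.unique i.2.1 i.2.2.1 (H06.isHeckeTr_periodMap i.2.1 i.2.2.1 f) (htX i _)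

end Sat

end Fermat.Agent.S31.H69
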