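import Mathlib

/-!
# S31 (helper69): Dickson polynomials

`dick t d j` is the sequence `D₀ = 2`, `D₁ = t`, `D_{j+2} = t D_{j+1} - d D_j`; for an invertible
`s` with `s² - t s + d = 0` one has `D_j = s^j + d^j s^{-j}` (`dick_eq_pow_add`), and for an
endomorphism of a free rank two module with characteristic polynomial `X² - a X + d` the trace
of the `j`-th power is `D_j(a, d)` (`trace_pow_eq_dick`).
-/

set_option autoImplicit false

namespace Fermat.Agent.S31.H69

open Module Polynomial

section Dickson

/-- The Dickson recursion `D₀ = 2`, `D₁ = t`, `D_{j+2} = t D_{j+1} - d D_j`. -/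
def dick {R : Type*} [Ring R] (t : R) (d : ℤ) : ℕ → R
  | 0 => 2
  | 1 => t
  | (j + 2) => t * dick t d (j + 1) - d • dick t d j

@[simp] theorem dick_zero {R : Type*} [Ring R] (t : R) (d : ℤ) : dick t d 0 = 2 := rfl

@[simp] theorem dick_one {R : Type*} [Ring R] (t : R) (d : ℤ) : dick t d 1 = t := rfl

theorem dick_add_two {R : Type*} [Ring R] (t : R) (d : ℤ) (j : ℕ) :
    dick t d (j + 2) = t * dick t d (j + 1) - d • dick t d j := rfl

theorem map_dick {R R' : Type*} [Ring R] [Ring R'] (f : R →+* R') (t : R) (d : ℤ) (j : ℕ) :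
    f (dick t d j) = dick (f t) d j := by
  induction j using Nat.twoStepInduction with
  | zero => exact map_ofNat f 2
  | one => rfl
  | more j ih0 ih1 => rw [dick_add_two, dick_add_two, map_sub, map_mul, map_zsmul, ih0, ih1]

/-- Operator form: if `s` is invertible with inverse `u`, `t` commutes with `s` and
`s² - t s + d = 0`, then `D_j(t, d) = s^j + d^j u^j`. -/
theorem dick_eq_pow_add {E : Type*} [Ring E] (s u t : E) (d : ℤ) (hsu : s * u = 1) (hus : u * s = 1)
    (hquad : s * s - t * s + d • (1 : E) = 0) (j : ℕ) :
    dick t d j = s ^ j + (d ^ j) • u ^ j := by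
  have ht : t = s + d • u := by
    have h1 : (s * s - t * s + d • (1 : E)) * u = 0 := by rw [hquad, zero_mul]
    have h2 : (s * s - t * s + d • (1 : E)) * u = s - t + d • u := by
      rw [add_mul, sub_mul, mul_assoc, mul_assoc, hsu, mul_one, mul_one, smul_mul_assoc, one_mul]
    rw [h2] at h1
    have : s + d • u - t = 0 := by rw [← h1]; abel
    exact (sub_eq_zero.mp this).symm
  have hcomm : Commute s u := by
    show s * u = u * s
    rw [hsu, hus]
  induction j using Nat.twoStepInduction with
  | zero =>
    simp only [dick_zero, pow_zero, one_smul]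
    norm_num
  | one => simp only [dick_one, pow_one]; exact ht
  | more j ih0 ih1 =>
    rw [dick_add_two, ih0, ih1, ht]
    have e1 : s * u ^ (j + 1) = u ^ j := by
      rw [pow_succ', ← mul_assoc, hsu, one_mul]
    have e2 : u * s ^ (j + 1) = s ^ j := by
      rw [pow_succ', ← mul_assoc, hus, one_mul]
    have e3 : u * u ^ (j + 1) = u ^ (j + 2) := by rw [← pow_succ']
    have e4 : s * s ^ (j + 1) = s ^ (j + 2) := by rw [← pow_succ']
    rw [add_mul, mul_add, mul_add, e4, mul_smul_comm, e1, smul_mul_assoc, e2, smul_mul_assoc,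
      mul_smul_comm, e3, smul_add, smul_smul, smul_smul]
    have p1 : d * d ^ (j + 1) = d ^ (j + 2) := (pow_succ' d (j + 1)).symm
    have p2 : d * d ^ j = d ^ (j + 1) := (pow_succ' d j).symm
    rw [p1, p2]
    abel

/-- Trace form: for an endomorphism of a free module of rank two with characteristic polynomial
`X² - a X + d`, `tr (f^j) = D_j(a, d)`. -/
theorem trace_pow_eq_dick {T : Type*} [CommRing T] [Nontrivial T] {V : Type*} [AddCommGroup V]
    [Module T V] [Module.Free T V] [Module.Finite T V] (hV : finrank T V = 2)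
    (f : Module.End T V) (a : T) (d : ℤ)
    (hchar : LinearMap.charpoly f = X ^ 2 - C a * X + C (d : T)) (j : ℕ) :
    LinearMap.trace T V (f ^ j) = dick a d j := by
  classical
  have hquad : f * f - a • f + (d : T) • (1 : Module.End T V) = 0 := by
    have h := LinearMap.aeval_self_charpoly f
    rw [hchar] at h
    simp only [map_add, map_sub, map_mul, map_pow, aeval_X, aeval_C] at h
    rw [Algebra.algebraMap_eq_smul_one, Algebra.algebraMap_eq_smul_one, smul_mul_assoc, one_mul,
      pow_two] at h
    exact h
  have htr : LinearMap.trace T V f = a := by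
    let b : Basis (Fin 2) T V := Module.finBasisOfFinrankEq T V hV
    have hc : Fintype.card (Fin 2) - 1 = 1 := by simp
    rw [LinearMap.trace_eq_matrix_trace T b, Matrix.trace_eq_neg_charpoly_coeff,
      LinearMap.charpoly_toMatrix, hchar, hc, coeff_add, coeff_sub, coeff_X_pow, coeff_C_mul,
      coeff_X, coeff_C]
    norm_num
  have hrec : ∀ j, f ^ (j + 2) = a • f ^ (j + 1) - (d : T) • f ^ j := by
    intro j
    have h1 : (f * f - a • f + (d : T) • (1 : Module.End T V)) * f ^ j = 0 := by
      rw [hquad, zero_mul]
    have h2 : (f * f - a • f + (d : T) • (1 : Module.End T V)) * f ^ j =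
        f ^ (j + 2) - a • f ^ (j + 1) + (d : T) • f ^ j := by
      rw [add_mul, sub_mul, smul_mul_assoc, smul_mul_assoc, one_mul, ← pow_two, ← pow_add,
        ← pow_succ']
      congr 2
      rw [add_comm]
    rw [h2] at h1
    rw [← sub_eq_zero, ← h1]
    abel
  induction j using Nat.twoStepInduction with
  | zero =>
    rw [pow_zero, LinearMap.trace_one, hV]
    simp
  | one => rw [pow_one, htr]; rfl
  | more j ih0 ih1 =>
    rw [hrec, map_sub, map_smul, map_smul, ih0, ih1, dick_add_two]
    simp [smul_eq_mul, zsmul_eq_mul]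

end Dickson

end Fermat.Agent.S31.H69
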