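import Mathlib

/-!
# S31 (helper69): Burnside for two-dimensional representations

`span_range_eq_top_of_irreducible` : over an algebraically closed field, the image of an
irreducible two-dimensional representation of a monoid spans the whole endomorphism algebra.
-/

set_option autoImplicit false

namespace Fermat.Agent.S31.H69

open Module

section Burnside

variable {K V : Type*} [Field K] [IsAlgClosed K] [AddCommGroup V] [Module K V]
variable {G : Type*} [Monoid G]

/-- Burnside's theorem in dimension two, in the literal shape of the Prelude's irreducibility. -/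
theorem span_range_eq_top_of_irreducible (hV : finrank K V = 2) (r : G →* Module.End K V)
    (hirr : ∀ W : Submodule K V, (∀ g : G, ∀ x ∈ W, r g x ∈ W) → W = ⊥ ∨ W = ⊤) :
    Submodule.span K (Set.range r) = ⊤ := by
  classical
  have : FiniteDimensional K V := Module.finite_of_finrank_eq_succ hV
  have : Nontrivial V := Module.nontrivial_of_finrank_eq_succ hV
  set B : Submodule K (Module.End K V) := Submodule.span K (Set.range r) with hB
  have hone : (1 : Module.End K V) ∈ B := Submodule.subset_span ⟨1, map_one r⟩
  have hrB : ∀ g, r g ∈ B := fun g => Submodule.subset_span ⟨g, rfl⟩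
  have hmul : ∀ a ∈ B, ∀ b ∈ B, a * b ∈ B := by
    intro a ha b hb
    refine Submodule.span_induction (p := fun a _ => a * b ∈ B) ?_ ?_ ?_ ?_ ha
    · rintro _ ⟨g, rfl⟩
      refine Submodule.span_induction (p := fun b _ => r g * b ∈ B) ?_ ?_ ?_ ?_ hb
      · rintro _ ⟨h, rfl⟩
        rw [← map_mul]; exact hrB _
      · simp
      · intro x y _ _ hx hy; rw [mul_add]; exact B.add_mem hx hy
      · intro c x _ hx; rw [mul_smul_comm]; exact B.smul_mem c hx
    · simp
    · intro x y _ _ hx hy; rw [add_mul]; exact B.add_mem hx hy
    · intro c x _ hx; rw [smul_mul_assoc]; exact B.smul_mem c hx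
  -- Step 1: a nonzero, non-injective element of `B`.
  have h1 : ∃ a ∈ B, a ≠ 0 ∧ ∃ v : V, v ≠ 0 ∧ a v = 0 := by
    by_contra hcon
    push Not at hcon
    obtain ⟨v0, hv0⟩ := exists_ne (0 : V)
    have hst : ∀ g : G, ∀ x ∈ Submodule.span K {v0}, r g x ∈ Submodule.span K {v0} := by
      intro g x hx
      obtain ⟨μ, hμ⟩ := Module.End.exists_eigenvalue (r g)
      obtain ⟨v, hv⟩ := hμ.exists_hasEigenvector
      have ha : r g - μ • (1 : Module.End K V) ∈ B := B.sub_mem (hrB g) (B.smul_mem μ hone)
      have h0 : r g - μ • (1 : Module.End K V) = 0 := by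
        by_contra hne
        refine hcon _ ha hne v hv.2 ?_
        have := hv.apply_eq_smul
        simp [this]
      have hg : r g = μ • (1 : Module.End K V) := sub_eq_zero.mp h0
      rw [hg]
      simpa using Submodule.smul_mem _ μ hx
    rcases hirr _ hst with h | h
    · exact hv0 ((Submodule.span_singleton_eq_bot).mp h)
    · have h2 : finrank K (Submodule.span K {v0}) = 1 := finrank_span_singleton hv0
      rw [h, finrank_top, hV] at h2
      omega
  obtain ⟨a, haB, ha0, v, hv0, hav⟩ := h1
  obtain ⟨w, hw⟩ : ∃ w, a w ≠ 0 := by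
    by_contra hcon
    push Not at hcon
    exact ha0 (LinearMap.ext hcon)
  set u := a w with hu
  -- Step 2: `B u = V`.
  have hU : ∀ y : V, ∃ b ∈ B, b u = y := by
    let U : Submodule K V := B.map (LinearMap.applyₗ u)
    have hUst : ∀ g : G, ∀ x ∈ U, r g x ∈ U := by
      rintro g x ⟨b, hb, rfl⟩
      exact ⟨r g * b, hmul _ (hrB g) _ hb, rfl⟩
    have huU : u ∈ U := ⟨1, hone, rfl⟩
    rcases hirr U hUst with h | h
    · exact absurd (by rw [h] at huU; simpa using huU) hw
    · intro y
      have : y ∈ U := by rw [h]; trivial
      obtain ⟨b, hb, rfl⟩ := this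
      exact ⟨b, hb, rfl⟩
  -- the range of `a` is the line through `u`
  have hker : LinearMap.ker a ≠ ⊥ := by
    intro h
    exact hv0 ((LinearMap.ker_eq_bot'.mp h) v hav)
  have hrange : ∀ y : V, ∃ c : K, a y = c • u := by
    have hk1 : 1 ≤ finrank K (LinearMap.ker a) := by
      rw [Nat.one_le_iff_ne_zero, Ne, Submodule.finrank_eq_zero]
      exact hker
    have hrk : finrank K (LinearMap.range a) + finrank K (LinearMap.ker a) = 2 := by
      rw [LinearMap.finrank_range_add_finrank_ker, hV]
    have hr1 : finrank K (LinearMap.range a) ≤ 1 := by omega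
    have hle : Submodule.span K {u} ≤ LinearMap.range a := by
      rw [Submodule.span_singleton_le_iff_mem]; exact ⟨w, rfl⟩
    have heq : Submodule.span K {u} = LinearMap.range a := by
      refine Submodule.eq_of_le_of_finrank_le hle ?_
      rw [finrank_span_singleton hw]; exact hr1
    intro y
    have : a y ∈ Submodule.span K {u} := by rw [heq]; exact ⟨y, rfl⟩
    obtain ⟨c, hc⟩ := Submodule.mem_span_singleton.mp this
    exact ⟨c, hc.symm⟩
  choose φ hφ using hrange
  have hφadd : ∀ x y, φ (x + y) = φ x + φ y := by
    intro x y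
    have h := hφ (x + y)
    rw [map_add, hφ x, hφ y, ← add_smul] at h
    exact (smul_left_injective K hw h).symm
  have hφsmul : ∀ (c : K) x, φ (c • x) = c * φ x := by
    intro c x
    have h := hφ (c • x)
    rw [map_smul, hφ x, smul_smul] at h
    exact (smul_left_injective K hw h).symm
  let φl : V →ₗ[K] K :=
    { toFun := φ
      map_add' := hφadd
      map_smul' := fun c x => by simp [hφsmul] }
  -- Step 3: the functionals `φ ∘ b`, `b ∈ B`, are all functionals.
  let Φ : Submodule K (Module.Dual K V) := B.map (LinearMap.llcomp K V V K φl)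
  have hΦ : Φ = ⊤ := by
    have hco : Φ.dualCoannihilator = ⊥ := by
      let N : Submodule K V := Φ.dualCoannihilator
      have hNst : ∀ g : G, ∀ x ∈ N, r g x ∈ N := by
        intro g x hx
        rw [Submodule.mem_dualCoannihilator] at hx ⊢
        rintro _ ⟨b, hb, rfl⟩
        have := hx (LinearMap.llcomp K V V K φl (b * r g)) ⟨b * r g, hmul _ hb _ (hrB g), rfl⟩
        simpa using this
      rcases hirr N hNst with h | h
      · exact h
      · exfalso
        have hwN : w ∈ N := by rw [h]; trivial
        rw [Submodule.mem_dualCoannihilator] at hwN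
        have := hwN (LinearMap.llcomp K V V K φl 1) ⟨1, hone, rfl⟩
        have h2 : φ w = 0 := by simpa [φl] using this
        have h3 := hφ w
        rw [h2, zero_smul] at h3
        exact hw h3
    have := Subspace.dualCoannihilator_dualAnnihilator_eq (W := Φ)
    rw [hco] at this
    rw [← this]
    simp
  -- conclusion: every endomorphism is a sum of rank one maps `ψ(·) y`, all in `B`.
  have hrank1 : ∀ (ψ : Module.Dual K V) (y : V), (LinearMap.smulRight ψ y : Module.End K V) ∈ B := by
    intro ψ y
    obtain ⟨b, hb, hby⟩ := hU y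
    have hψ : ψ ∈ Φ := by rw [hΦ]; trivial
    obtain ⟨b', hb', hb'ψ⟩ := hψ
    have : (LinearMap.smulRight ψ y : Module.End K V) = b * a * b' := by
      ext x
      simp only [LinearMap.smulRight_apply, Module.End.mul_apply]
      rw [hφ (b' x), map_smul, hby, ← hb'ψ]
      simp [φl]
    rw [this]
    exact hmul _ (hmul _ hb _ haB) _ hb'
  rw [eq_top_iff]
  intro f _
  let bas := Module.finBasis K V
  have hf : f = ∑ i, (LinearMap.smulRight (bas.coord i) (f (bas i)) : Module.End K V) := by
    refine bas.ext fun j => ?_
    simp only [LinearMap.coe_sum, Finset.sum_apply, LinearMap.smulRight_apply, Basis.coord_apply,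
      Basis.repr_self]
    rw [Finset.sum_eq_single j]
    · simp
    · intro i _ hij
      simp [Finsupp.single_apply, hij.symm]
    · simp
  rw [hf]
  exact B.sum_mem fun i _ => hrank1 _ _

end Burnside

end Fermat.Agent.S31.H69
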