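import Mathlib
import Fermat.Agent.S31.Burnside_helper69

/-!
# S31 (helper69): the trace pairing against an absolutely irreducible representation

`eq_zero_of_forall_trace_mul_eq_zero` : for a free module `V` of rank two over a local ring `T`
and a representation whose residual representation is absolutely irreducible, an endomorphism
`x` with `tr (ρ g * x) = 0` for all `g` is zero.
-/

set_option autoImplicit false

namespace Fermat.Agent.S31.H69

open Module
open scoped TensorProduct

section Lift

variable {T : Type*} [CommRing T] [IsLocalRing T] {V : Type*} [AddCommGroup V] [Module T V]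
  [Module.Free T V] [Module.Finite T V]
variable {G : Type*} [Monoid G]
variable {K : Type*} [Field K] [IsAlgClosed K] [Algebra (IsLocalRing.ResidueField T) K]

/-- If the residual representation (base changed to an algebraically closed field) is irreducible,
the trace pairing against the image of `ρ` detects zero. -/
theorem eq_zero_of_forall_trace_mul_eq_zero (hV : finrank T V = 2) (ρ : G →* Module.End T V)
    (hirr : ∀ W : Submodule K (K ⊗[IsLocalRing.ResidueField T] (IsLocalRing.ResidueField T ⊗[T] V)),
      (∀ g : G, ∀ x ∈ W,
        ((ρ g).baseChange (IsLocalRing.ResidueField T)).baseChange K x ∈ W) → W = ⊥ ∨ W = ⊤)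
    (x : Module.End T V) (hx : ∀ g : G, LinearMap.trace T V (ρ g * x) = 0) : x = 0 := by
  classical
  let k := IsLocalRing.ResidueField T
  let b : Basis (Fin 2) T V := Module.finBasisOfFinrankEq T V hV
  let bk : Basis (Fin 2) k (k ⊗[T] V) := Algebra.TensorProduct.basis k b
  let bK : Basis (Fin 2) K (K ⊗[k] (k ⊗[T] V)) := Algebra.TensorProduct.basis K bk
  let r : G →* Module.End K (K ⊗[k] (k ⊗[T] V)) :=
    { toFun := fun g => ((ρ g).baseChange k).baseChange K
      map_one' := by rw [map_one, LinearMap.baseChange_one, LinearMap.baseChange_one]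
      map_mul' := fun g h => by rw [map_mul, LinearMap.baseChange_mul, LinearMap.baseChange_mul] }
  have hfr : finrank K (K ⊗[k] (k ⊗[T] V)) = 2 := by
    rw [Module.finrank_baseChange, Module.finrank_baseChange, hV]
  have hspan := span_range_eq_top_of_irreducible hfr r hirr
  let φ : T →+* K := (algebraMap k K).comp (algebraMap T k)
  let M : G → Matrix (Fin 2) (Fin 2) T := fun g => LinearMap.toMatrix b b (ρ g)
  have hM : ∀ g, LinearMap.toMatrix bK bK (r g) = (M g).map φ := by
    intro g
    show LinearMap.toMatrix bK bK (((ρ g).baseChange k).baseChange K) = _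
    rw [LinearMap.toMatrix_baseChange, LinearMap.toMatrix_baseChange, Matrix.map_map]
    rfl
  have hspanM : Submodule.span K (Set.range fun g => (M g).map φ) = ⊤ := by
    have h1 := congrArg (Submodule.map (LinearMap.toMatrix bK bK).toLinearMap) hspan
    rw [Submodule.map_span, Submodule.map_top, LinearEquiv.range] at h1
    rw [← h1]
    congr 1
    ext X
    constructor
    · rintro ⟨g, rfl⟩
      exact ⟨r g, ⟨g, rfl⟩, hM g⟩
    · rintro ⟨_, ⟨g, rfl⟩, rfl⟩
      exact ⟨g, (hM g).symm⟩
  obtain ⟨f, hfmem, -, hfli⟩ :=
    Submodule.exists_fun_fin_finrank_span_eq K (Set.range fun g => (M g).map φ)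
  have h4 : finrank K (Submodule.span K (Set.range fun g => (M g).map φ)) = 4 := by
    rw [hspanM, finrank_top, Module.finrank_matrix]
    simp
  let f' : Fin 4 → Matrix (Fin 2) (Fin 2) K := fun i => f (Fin.cast h4.symm i)
  have hf'li : LinearIndependent K f' := hfli.comp _ (Fin.cast_injective _)
  have hf'mem : ∀ i, ∃ g, (M g).map φ = f' i := fun i => hfmem _
  choose gi hgi using hf'mem
  let e : Fin 4 ≃ Fin 2 × Fin 2 := (finProdFinEquiv (m := 2) (n := 2)).symm
  let C : Matrix (Fin 4) (Fin 4) T := fun i j => M (gi i) (e j).1 (e j).2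
  let L : Matrix (Fin 2) (Fin 2) K →ₗ[K] (Fin 4 → K) :=
    { toFun := fun X j => X (e j).1 (e j).2
      map_add' := fun X Y => rfl
      map_smul' := fun c X => rfl }
  have hL : LinearMap.ker L = ⊥ := by
    rw [LinearMap.ker_eq_bot']
    intro X hX
    ext a c
    have h := congrFun hX (e.symm (a, c))
    have h' : X (e (e.symm (a, c))).1 (e (e.symm (a, c))).2 = 0 := h
    rw [Equiv.apply_symm_apply] at h'
    exact h'
  have hrows : LinearIndependent K (C.map φ).row := by
    have h1 := hf'li.map' L hL
    have h2 : (C.map φ).row = L ∘ f' := by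
      funext i
      funext j
      show φ (M (gi i) (e j).1 (e j).2) = (f' i) (e j).1 (e j).2
      rw [← hgi i]
      rfl
    rw [h2]
    exact h1
  have hunitK : IsUnit (C.map φ) := Matrix.linearIndependent_rows_iff_isUnit.mp hrows
  have hdetK : IsUnit (φ C.det) := by
    have := (Matrix.isUnit_iff_isUnit_det _).mp hunitK
    rwa [← RingHom.mapMatrix_apply, ← RingHom.map_det] at this
  have hdet : IsUnit C.det := by
    by_contra hnu
    have hmem : C.det ∈ IsLocalRing.maximalIdeal T := (IsLocalRing.mem_maximalIdeal _).mpr hnu
    have h0 : φ C.det = 0 := by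
      show algebraMap k K (algebraMap T k C.det) = 0
      rw [IsLocalRing.ResidueField.algebraMap_eq, (IsLocalRing.residue_eq_zero_iff _).mpr hmem,
        map_zero]
    rw [h0] at hdetK
    exact not_isUnit_zero hdetK
  have hunit : IsUnit C := (Matrix.isUnit_iff_isUnit_det _).mpr hdet
  let X : Matrix (Fin 2) (Fin 2) T := LinearMap.toMatrix b b x
  let y : Fin 4 → T := fun j => X (e j).2 (e j).1
  have hCy : C.mulVec y = 0 := by
    ext i
    have h1 := hx (gi i)
    rw [LinearMap.trace_eq_matrix_trace T b, LinearMap.toMatrix_mul] at h1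
    simp only [Matrix.mulVec, dotProduct, Pi.zero_apply]
    rw [← h1, Matrix.trace]
    simp only [Matrix.diag_apply, Matrix.mul_apply]
    rw [← Finset.sum_product', Finset.univ_product_univ]
    exact Fintype.sum_equiv e _ _ fun j => rfl
  have hy : y = 0 := Matrix.mulVec_injective_of_isUnit hunit (by rw [hCy, Matrix.mulVec_zero])
  have hX : X = 0 := by
    ext a c
    have h := congrFun hy (e.symm (c, a))
    have h' : X (e (e.symm (c, a))).2 (e (e.symm (c, a))).1 = 0 := h
    rw [Equiv.apply_symm_apply] at h'
    exact h'
  exact (LinearMap.toMatrix b b).injective (by rw [map_zero]; exact hX)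

end Lift

end Fermat.Agent.S31.H69
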