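import Mathlib
import Fermat.Prelude.Def_CuspForm_HeckeGaloisRepDatum
import Fermat.Agent.S31.TraceZero_helper69
import Fermat.Agent.S31.Dickson_helper69

/-!
# S31 (helper69): witness modules

The named leaves `FrobPower`, `CycFrob`, `CycInertia`, the structure `Wit S p q M` of a witness
module of exponent `p ^ M` (Galois action of finite level, Hecke operators, Eichler–Shimura
relation at Frobenius lifts outside `S`, trivial inertia at `q`) and its faithfulness `Faith`.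
-/

set_option autoImplicit false

namespace Fermat.Agent.S31.H69

open Module Polynomial
open scoped TensorProduct

/-- `ℚ̄`. -/
abbrev Qb : Type := AlgebraicClosure ℚ

/-- The absolute Galois group of `ℚ`. -/
abbrev GQ : Type := Qb ≃ₐ[ℚ] Qb

/-- (FD) Frobenius-power existence (the literal shape of the density leaf). -/
def FrobPower : Prop :=
  ∀ (K : IntermediateField ℚ Qb) [FiniteDimensional ℚ K] [IsGalois ℚ K] (g : GQ) (S0 : Finset ℕ),
    ∃ ℓ : ℕ, ℓ.Prime ∧ ℓ ∉ S0 ∧ ∃ A : ValuationSubring Qb, A.LiesOverPrime ℓ ∧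
      ∃ τ : GQ, A.IsFrobeniusAt τ ℓ ∧ ∃ j : ℕ, ∀ x ∈ K, (τ ^ j) x = g x

/-- (CYC1) a Frobenius lift at `ℓ ∤ m` raises `m`-th roots of unity to the `ℓ`-th power. -/
def CycFrob : Prop :=
  ∀ (m ℓ : ℕ) (A : ValuationSubring Qb), ℓ.Prime → A.LiesOverPrime ℓ → ¬ ℓ ∣ m →
    ∀ σ : GQ, A.IsFrobeniusAt σ ℓ → ∀ ζ : Qb, ζ ^ m = 1 → σ ζ = ζ ^ ℓ

/-- (CYC2) inertia at `ℓ ∤ m` fixes the `m`-th roots of unity. -/
def CycInertia : Prop :=
  ∀ (m ℓ : ℕ) (A : ValuationSubring Qb), ℓ.Prime → A.LiesOverPrime ℓ → ¬ ℓ ∣ m →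
    ∀ τ ∈ A.inertiaSubgroupIn ℚ, ∀ ζ : Qb, ζ ^ m = 1 → τ ζ = ζ

/-- A witness module of exponent `p ^ M`: a `ℤ`-module with a Galois action of finite level, Hecke
operators, the Eichler–Shimura relation at every Frobenius lift at a prime outside `S`, and trivial
inertia at `q`. -/
structure Wit (S : Finset ℕ) (p q M : ℕ) where
  /-- the carrier -/
  W : Type
  [instW : AddCommGroup W]
  /-- the Galois action -/
  act : GQ →* Module.End ℤ W
  /-- the Hecke operators -/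
  Tl : Nat.Primes → Module.End ℤ W
  tors : ∀ w : W, (p ^ M : ℕ) • w = 0
  level : ∃ L : IntermediateField ℚ Qb, FiniteDimensional ℚ L ∧
    ∀ σ : GQ, (∀ x ∈ L, σ x = x) → act σ = 1
  quad : ∀ ℓ : Nat.Primes, (ℓ : ℕ) ∉ S → ∀ A : ValuationSubring Qb, A.LiesOverPrime ℓ →
    ∀ σ : GQ, A.IsFrobeniusAt σ ℓ →
      act σ * act σ - Tl ℓ * act σ + ((ℓ : ℕ) : ℤ) • (1 : Module.End ℤ W) = 0
  unr : ∀ A : ValuationSubring Qb, A.LiesOverPrime q → ∀ σ ∈ A.inertiaSubgroupIn ℚ, act σ = 1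

attribute [instance] Wit.instW

/-- Faithfulness of a witness module at depth `n`: a Dickson relation between two Hecke operators
on the witness module forces the same relation in the Hecke algebra modulo `p ^ n`, up to a
multiplier prime to `p`. -/
def Faith (N : ℕ) [NeZero N] {S : Finset ℕ} {p q M : ℕ} (wit : Wit S p q M) (n : ℕ) : Prop :=
  ∀ (ℓ₁ ℓ₂ : ℕ) (h₁ : ℓ₁.Prime) (h₂ : ℓ₂.Prime) (h₁N : ¬ ℓ₁ ∣ N) (h₂N : ¬ ℓ₂ ∣ N)
    (h₁S : ℓ₁ ∉ (↑S : Set ℕ)) (h₂S : ℓ₂ ∉ (↑S : Set ℕ)) (j₁ j₂ : ℕ),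
    dick (wit.Tl ⟨ℓ₁, h₁⟩) (ℓ₁ : ℤ) j₁ = dick (wit.Tl ⟨ℓ₂, h₂⟩) (ℓ₂ : ℤ) j₂ →
    ∃ (e : ℤ) (Q : CuspForm.heckeAlgebra N 2 (↑S : Set ℕ)), IsCoprime e (p : ℤ) ∧
      e • (dick (CuspForm.heckeAlgebra.T h₁ h₁N h₁S : CuspForm.heckeAlgebra N 2 (↑S : Set ℕ))
          (ℓ₁ : ℤ) j₁ -
        dick (CuspForm.heckeAlgebra.T h₂ h₂N h₂S : CuspForm.heckeAlgebra N 2 (↑S : Set ℕ))
          (ℓ₂ : ℤ) j₂) = ((p : ℤ) ^ n) • Q

section TraceLemmas

variable {T : Type*} [CommRing T] {V : Type*} [AddCommGroup V] [Module T V]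
  [Module.Free T V] [Module.Finite T V]

theorem trace_mem_of_forall_mem (I : Ideal T) (f : Module.End T V)
    (hf : ∀ v, f v ∈ I • (⊤ : Submodule T V)) : LinearMap.trace T V f ∈ I := by
  classical
  let b := Module.Free.chooseBasis T V
  have hrepr : ∀ y ∈ I • (⊤ : Submodule T V), ∀ i, b.repr y i ∈ I := by
    intro y hy i
    refine Submodule.smul_induction_on hy ?_ ?_
    · intro a ha v _
      rw [map_smul, Finsupp.smul_apply, smul_eq_mul]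
      exact I.mul_mem_right _ ha
    · intro x y hx hy
      rw [map_add, Finsupp.add_apply]
      exact I.add_mem hx hy
  rw [LinearMap.trace_eq_matrix_trace T b, Matrix.trace]
  refine I.sum_mem fun i _ => ?_
  rw [Matrix.diag_apply, LinearMap.toMatrix_apply]
  exact hrepr _ (hf _) i

theorem trace_sub_trace_mem {G : Type*} [Group G] (ρ : G →* Module.End T V) (I : Ideal T)
    (σ σ' : G) (h : ∀ v : V, ρ (σ'⁻¹ * σ) v - v ∈ I • (⊤ : Submodule T V)) :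
    LinearMap.trace T V (ρ σ) - LinearMap.trace T V (ρ σ') ∈ I := by
  rw [← map_sub]
  refine trace_mem_of_forall_mem I _ fun v => ?_
  have h1 : ρ σ = ρ σ' * ρ (σ'⁻¹ * σ) := by rw [← map_mul, mul_inv_cancel_left]
  have h2 : (ρ σ - ρ σ') v = ρ σ' (ρ (σ'⁻¹ * σ) v - v) := by
    rw [h1, LinearMap.sub_apply, Module.End.mul_apply, map_sub]
  rw [h2]
  have h3 : (I • (⊤ : Submodule T V)).map (ρ σ') ≤ I • (⊤ : Submodule T V) := by
    rw [Submodule.map_smul'']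
    exact Submodule.smul_mono le_rfl le_top
  exact h3 (Submodule.mem_map_of_mem (h v))

end TraceLemmas


section Cyc

theorem frob_pow_root (C1 : CycFrob) (m ℓ : ℕ) (A : ValuationSubring Qb) (hℓ : ℓ.Prime)
    (hA : A.LiesOverPrime ℓ) (hm : ¬ ℓ ∣ m) (σ : GQ) (hσ : A.IsFrobeniusAt σ ℓ) (j : ℕ) :
    ∀ ζ : Qb, ζ ^ m = 1 → (σ ^ j) ζ = ζ ^ (ℓ ^ j) := by
  induction j with
  | zero => intro ζ _; simp
  | succ j ih =>
    intro ζ hζ
    have h1 : (ζ ^ (ℓ ^ j)) ^ m = 1 := by rw [← pow_mul, mul_comm, pow_mul, hζ, one_pow]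
    rw [pow_succ', AlgEquiv.mul_apply, ih ζ hζ, C1 m ℓ A hℓ hA hm σ hσ _ h1, ← pow_mul, ← pow_succ]

theorem exists_int_mul_of_pow_eq {ζ : Qb} {k a b : ℕ} (hk0 : 0 < k) (hζ : IsPrimitiveRoot ζ k)
    (h : ζ ^ a = ζ ^ b) : ∃ c : ℤ, (a : ℤ) - (b : ℤ) = (k : ℤ) * c := by
  have hfin : IsOfFinOrder ζ := isOfFinOrder_iff_pow_eq_one.mpr ⟨k, hk0, hζ.pow_eq_one⟩
  have hk : (a : ℤ) ≡ (b : ℤ) [ZMOD (k : ℤ)] := by
    have := hfin.pow_eq_pow_iff_modEq.mp h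
    rw [← hζ.eq_orderOf] at this
    exact Int.natCast_modEq_iff.mpr this
  obtain ⟨c, hc⟩ := hk.symm.dvd
  exact ⟨c, hc⟩

end Cyc

end Fermat.Agent.S31.H69
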