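import Mathlib
import Fermat.Prelude.Def_CuspForm_HeckeGaloisRepDatum
import Fermat.Agent.S29.Stmts_helper27
import Fermat.Agent.S29.GalClass_helper26
import Fermat.Agent.S29.GalHecke_helper13
import Fermat.Agent.S29.FiniteLevel_helper32
import Fermat.Agent.S31.Wit_helper69
import Fermat.Agent.S31.Lattice_helper69

/-!
# S31, layer 2b (helper69): the witness modules inside `J₀(N)[p^M]`

`witSub N m L` : the classes of `J₀(N)` killed by `m` and fixed by `Gal(ℚ̄ / L)`; for a normal
number field `L` it is stable under the Galois group and the Hecke operators, and `witOf` makes it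
a witness module `Wit S p q M` (Eichler–Shimura relation and trivial inertia from the landed
Galois side).  `faith_witOf` : the witness module is faithful at depth `n` as soon as it contains
the image of the Kummer class map `Ψ_{p^M}`, `M = n + c`, `c` the saturation constant.
-/

set_option autoImplicit false

namespace Fermat.Agent.S31.H69

open ModularCurve ModularCurve.Period CongruenceSubgroup
open Fermat.Agent.S29 Fermat.Agent.S21
open scoped MatrixGroups

noncomputable section Witness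

variable (N : ℕ) [NeZero N]

/-- The Galois action on `J₀(N)` as an additive endomorphism. -/
def galHom (σ : GQ) : JZero N →+ JZero N :=
  DistribSMul.toAddMonoidHom (JZero N) σ

omit [NeZero N] in
theorem galHom_apply (σ : GQ) (x : JZero N) : galHom N σ x = σ • x := rfl

/-- The classes killed by `m` and fixed by the Galois group of `L`. -/
def witSub (m : ℕ) (L : IntermediateField ℚ Qb) : AddSubgroup (JZero N) where
  carrier := {x | m • x = 0 ∧ ∀ σ : GQ, (∀ c ∈ L, σ c = c) → σ • x = x}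
  zero_mem' := ⟨nsmul_zero _, fun σ _ => (galHom N σ).map_zero⟩
  add_mem' := by
    rintro x y ⟨hx, hx'⟩ ⟨hy, hy'⟩
    refine ⟨by rw [nsmul_add, hx, hy, add_zero], fun σ hσ => ?_⟩
    have h := (galHom N σ).map_add x y
    rw [galHom_apply, galHom_apply, galHom_apply] at h
    rw [h, hx' σ hσ, hy' σ hσ]
  neg_mem' := by
    rintro x ⟨hx, hx'⟩
    refine ⟨by rw [neg_nsmul, hx, neg_zero], fun σ hσ => ?_⟩
    have h := (galHom N σ).map_neg x
    rw [galHom_apply, galHom_apply] at h
    rw [h, hx' σ hσ]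

omit [NeZero N] in
theorem mem_witSub {m : ℕ} {L : IntermediateField ℚ Qb} {x : JZero N} :
    x ∈ witSub N m L ↔ m • x = 0 ∧ ∀ σ : GQ, (∀ c ∈ L, σ c = c) → σ • x = x := Iff.rfl

omit [NeZero N] in
theorem galHom_mem_witSub (m : ℕ) (L : IntermediateField ℚ Qb)
    (hL : ∀ g : GQ, ∀ c ∈ L, g c ∈ L) (g : GQ) {x : JZero N} (hx : x ∈ witSub N m L) :
    galHom N g x ∈ witSub N m L := by
  refine ⟨?_, fun σ hσ => ?_⟩
  · show m • (g • x) = 0
    rw [H26.galois_smul_nsmul, hx.1]
    exact (galHom N g).map_zero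
  · show σ • (g • x) = g • x
    have h1 : (g⁻¹ * σ * g) • x = x := hx.2 _ fun c hc => by
      rw [AlgEquiv.mul_apply, AlgEquiv.mul_apply, hσ _ (hL g c hc)]
      exact g.symm_apply_apply c
    have h2 : σ * g = g * (g⁻¹ * σ * g) := by group
    rw [← mul_smul, h2, mul_smul, h1]

theorem hecke_mem_witSub (m : ℕ) (L : IntermediateField ℚ Qb) (ℓ : Nat.Primes) {x : JZero N}
    (hx : x ∈ witSub N m L) : heckeOperatorBar N ℓ x ∈ witSub N m L := by
  refine ⟨?_, fun σ hσ => ?_⟩
  · rw [← map_nsmul, hx.1, map_zero]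
  · rw [← H13.heckeOperatorBar_smul, hx.2 σ hσ]

/-- The Galois action on the witness subgroup. -/
def witAct (m : ℕ) (L : IntermediateField ℚ Qb) (hL : ∀ g : GQ, ∀ c ∈ L, g c ∈ L) :
    GQ →* Module.End ℤ (witSub N m L) where
  toFun g := (((galHom N g).comp (witSub N m L).subtype).codRestrict (witSub N m L)
    fun x => galHom_mem_witSub N m L hL g x.2).toIntLinearMap
  map_one' := by
    ext x
    show (1 : GQ) • (x : JZero N) = x
    rw [one_smul]
  map_mul' g h := by
    ext x
    show (g * h) • (x : JZero N) = g • (h • (x : JZero N))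
    rw [mul_smul]

omit [NeZero N] in
theorem coe_witAct_apply (m : ℕ) (L : IntermediateField ℚ Qb)
    (hL : ∀ g : GQ, ∀ c ∈ L, g c ∈ L) (g : GQ) (x : witSub N m L) :
    ((witAct N m L hL g x : witSub N m L) : JZero N) = g • (x : JZero N) := rfl

/-- The Hecke operators on the witness subgroup. -/
def witTl (m : ℕ) (L : IntermediateField ℚ Qb) (ℓ : Nat.Primes) :
    Module.End ℤ (witSub N m L) :=
  (((heckeOperatorBar N ℓ).toAddMonoidHom.comp (witSub N m L).subtype).codRestrict (witSub N m L)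
    fun x => hecke_mem_witSub N m L ℓ x.2).toIntLinearMap

theorem coe_witTl_apply (m : ℕ) (L : IntermediateField ℚ Qb) (ℓ : Nat.Primes)
    (x : witSub N m L) :
    ((witTl N m L ℓ x : witSub N m L) : JZero N) = heckeOperatorBar N ℓ (x : JZero N) := rfl

variable {N}

/-- The witness module attached to a normal number field `L`. -/
def witOf {S : Finset ℕ} {p q : ℕ} (hp : p.Prime) (hpS : p ∈ S)
    (hNS : ∀ q : ℕ, q.Prime → q ∣ N → q ∈ S) (hq : q.Prime) (hqS : q ∉ S) (M : ℕ)
    (L : IntermediateField ℚ Qb) (hLfin : FiniteDimensional ℚ L)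
    (hL : ∀ g : GQ, ∀ c ∈ L, g c ∈ L) : Wit S p q M where
  W := witSub N (p ^ M) L
  instW := inferInstance
  act := witAct N (p ^ M) L hL
  Tl := witTl N (p ^ M) L
  tors := fun w => Subtype.ext w.2.1
  level := ⟨L, hLfin, fun σ hσ => by
    ext w
    exact w.2.2 σ hσ⟩
  quad := by
    intro ℓ hℓS A hA σ hσ
    have hℓN : ¬ (ℓ : ℕ) ∣ N := fun hd => hℓS (hNS ℓ ℓ.2 hd)
    have hℓp : (ℓ : ℕ) ≠ p := fun e => hℓS (e ▸ hpS)
    have hm : ¬ (ℓ : ℕ) ∣ p ^ M := fun hd =>
      hℓp ((Nat.prime_dvd_prime_iff_eq ℓ.2 hp).mp (ℓ.2.dvd_of_dvd_pow hd))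
    ext w
    have h := H26.frob_quad N ℓ.2 hℓN A hA σ hσ (p ^ M) hm (w : JZero N) w.2.1
    show σ • σ • (w : JZero N) - heckeOperatorBar N ℓ (σ • (w : JZero N)) +
      ((ℓ : ℕ) : ℤ) • (w : JZero N) = 0
    rw [natCast_zsmul]
    exact h
  unr := by
    intro A hA σ hσ
    have hqN : ¬ q ∣ N := fun hd => hqS (hNS q hq hd)
    have hqp : q ≠ p := fun e => hqS (e ▸ hpS)
    have hm : ¬ q ∣ p ^ M := fun hd =>
      hqp ((Nat.prime_dvd_prime_iff_eq hq hp).mp (hq.dvd_of_dvd_pow hd))
    ext w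
    exact H26.inertia_fix N hq hqN A hA σ hσ (p ^ M) hm (w : JZero N) w.2.1

end Witness

end Fermat.Agent.S31.H69
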