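import Mathlib
import Fermat.Prelude.Def_CuspForm_HeckeGaloisRepDatum
import Fermat.Agent.S31.WitSub_helper69

/-!
# S31, layer 2c (helper69): faithfulness of the witness modules and the assembly
-/

set_option autoImplicit false

namespace Fermat.Agent.S31.H69

open ModularCurve ModularCurve.Period CongruenceSubgroup
open Fermat.Agent.S29 Fermat.Agent.S21
open scoped MatrixGroups

section Abstract

/-- An additive map intertwining two families of operators intertwines all noncommutative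
polynomials in them. -/
theorem lift_intertwine {I Λ J : Type*} [AddCommGroup Λ] [AddCommGroup J] (Ψ : Λ →+ J)
    (tΛ : I → Module.End ℤ Λ) (tJ : I → Module.End ℤ J)
    (h : ∀ i x, Ψ (tΛ i x) = tJ i (Ψ x)) (Z : FreeAlgebra ℤ I) :
    ∀ x : Λ, Ψ (FreeAlgebra.lift ℤ tΛ Z x) = FreeAlgebra.lift ℤ tJ Z (Ψ x) := by
  induction Z using FreeAlgebra.induction with
  | grade0 r =>
    intro x
    rw [AlgHom.commutes, AlgHom.commutes, Algebra.algebraMap_eq_smul_one,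
      Algebra.algebraMap_eq_smul_one, LinearMap.smul_apply, LinearMap.smul_apply,
      Module.End.one_apply, Module.End.one_apply, map_zsmul]
  | grade1 i =>
    intro x
    rw [FreeAlgebra.lift_ι_apply, FreeAlgebra.lift_ι_apply, h]
  | mul a b ha hb =>
    intro x
    rw [map_mul, map_mul, Module.End.mul_apply, Module.End.mul_apply, ha, hb]
  | add a b ha hb =>
    intro x
    rw [map_add, map_add, LinearMap.add_apply, LinearMap.add_apply, map_add, ha, hb]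

/-- Noncommutative polynomials in operators preserving a subgroup restrict to the subgroup. -/
theorem lift_restrict {I J : Type*} [AddCommGroup J] (W : AddSubgroup J)
    (tJ : I → Module.End ℤ J) (tW : I → Module.End ℤ W)
    (h : ∀ (i : I) (w : W), ((tW i w : W) : J) = tJ i (w : J)) (Z : FreeAlgebra ℤ I) :
    ∀ w : W, FreeAlgebra.lift ℤ tJ Z (w : J) = ((FreeAlgebra.lift ℤ tW Z w : W) : J) := by
  induction Z using FreeAlgebra.induction with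
  | grade0 r =>
    intro w
    rw [AlgHom.commutes, AlgHom.commutes, Algebra.algebraMap_eq_smul_one,
      Algebra.algebraMap_eq_smul_one, LinearMap.smul_apply, LinearMap.smul_apply,
      Module.End.one_apply, Module.End.one_apply, AddSubgroup.coe_zsmul]
  | grade1 i =>
    intro w
    rw [FreeAlgebra.lift_ι_apply, FreeAlgebra.lift_ι_apply, h]
  | mul a b ha hb =>
    intro w
    rw [map_mul, map_mul, Module.End.mul_apply, Module.End.mul_apply, hb, ha]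
  | add a b ha hb =>
    intro w
    rw [map_add, map_add, LinearMap.add_apply, LinearMap.add_apply, ha, hb, AddSubgroup.coe_add]

/-- The image of a difference of Dickson polynomials in two generators. -/
theorem lift_dick_sub {I E : Type*} [Ring E] [Algebra ℤ E] (t : I → E) (i₁ i₂ : I) (d₁ d₂ : ℤ)
    (j₁ j₂ : ℕ) :
    FreeAlgebra.lift ℤ t (dick (FreeAlgebra.ι ℤ i₁) d₁ j₁ - dick (FreeAlgebra.ι ℤ i₂) d₂ j₂) =
      dick (t i₁) d₁ j₁ - dick (t i₂) d₂ j₂ := by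
  have e1 := map_dick (FreeAlgebra.lift ℤ t).toRingHom (FreeAlgebra.ι ℤ i₁) d₁ j₁
  have e2 := map_dick (FreeAlgebra.lift ℤ t).toRingHom (FreeAlgebra.ι ℤ i₂) d₂ j₂
  simp only [AlgHom.toRingHom_eq_coe, RingHom.coe_coe, FreeAlgebra.lift_ι_apply] at e1 e2
  rw [map_sub, e1, e2]

/-- If a noncommutative polynomial in the operators kills the subgroup `W` containing the image
of `Ψ`, and the kernel of `Ψ` is `m Λ`, then the polynomial is divisible by `m` on `Λ`. -/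
theorem exists_smul_of_lift_eq_zero {I Λ J : Type*} [AddCommGroup Λ] [AddCommGroup J]
    (W : AddSubgroup J) (Ψ : Λ →+ J) (tΛ : I → Module.End ℤ Λ) (tJ : I → Module.End ℤ J)
    (tW : I → Module.End ℤ W) (h1 : ∀ i x, Ψ (tΛ i x) = tJ i (Ψ x))
    (h2 : ∀ (i : I) (w : W), ((tW i w : W) : J) = tJ i (w : J)) (hΨW : ∀ x, Ψ x ∈ W) (m : ℕ)
    (hker : ∀ x : Λ, Ψ x = 0 → ∃ y : Λ, x = m • y) (P : FreeAlgebra ℤ I)
    (hP : FreeAlgebra.lift ℤ tW P = 0) (x : Λ) :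
    ∃ y : Λ, FreeAlgebra.lift ℤ tΛ P x = (m : ℤ) • y := by
  have h3 : Ψ (FreeAlgebra.lift ℤ tΛ P x) = 0 := by
    rw [lift_intertwine Ψ tΛ tJ h1 P x]
    have h4 := lift_restrict W tJ tW h2 P ⟨Ψ x, hΨW x⟩
    rw [hP] at h4
    exact h4
  obtain ⟨y, hy⟩ := hker _ h3
  exact ⟨y, by rw [hy, natCast_zsmul]⟩

end Abstract

noncomputable section Faith

variable {N : ℕ} [NeZero N] {S : Finset ℕ} {p q : ℕ}

/-- The Hecke operators on `J₀(N)` indexed by `Idx N S`. -/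
def tJ (N : ℕ) [NeZero N] (S : Finset ℕ) (i : Idx N S) : Module.End ℤ (JZero N) :=
  heckeOperatorBar N ⟨i.1, i.2.1⟩

/-- The Kummer class map intertwines noncommutative polynomials in the Hecke operators. -/
theorem psi_lift (Ψ : H27.Lam N →+ JZero N)
    (hΨT : ∀ ℓ : Nat.Primes, ¬ (ℓ : ℕ) ∣ N → ∀ χ χ' : H27.Lam N,
      H06.IsHeckeTr N ℓ (χ : Additive (Gamma0 N) →+ ℤ) (χ' : Additive (Gamma0 N) →+ ℤ) →
        heckeOperatorBar N ℓ (Ψ χ) = Ψ χ')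
    (tΛ : Idx N S → Module.End ℤ (H27.Lam N))
    (htΛ : ∀ (i : Idx N S) (χ : H27.Lam N),
      H06.IsHeckeTr N i.1 (χ : Additive (Gamma0 N) →+ ℤ)
        ((tΛ i χ : H27.Lam N) : Additive (Gamma0 N) →+ ℤ))
    (Z : FreeAlgebra ℤ (Idx N S)) (x : H27.Lam N) :
    Ψ (FreeAlgebra.lift ℤ tΛ Z x) = FreeAlgebra.lift ℤ (tJ N S) Z (Ψ x) :=
  lift_intertwine Ψ tΛ (tJ N S)
    (fun i x => (hΨT ⟨i.1, i.2.1⟩ i.2.2.1 x _ (htΛ i x)).symm) Z x

/-- Polynomials in the Hecke operators restrict to the witness subgroup. -/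
theorem lift_witTl (m : ℕ) (L : IntermediateField ℚ Qb) (Z : FreeAlgebra ℤ (Idx N S))
    (w : witSub N m L) : FreeAlgebra.lift ℤ (tJ N S) Z (w : JZero N) =
      ((FreeAlgebra.lift ℤ (fun i : Idx N S => witTl N m L ⟨i.1, i.2.1⟩) Z w : witSub N m L) :
        JZero N) :=
  lift_restrict (witSub N m L) (tJ N S) (fun i : Idx N S => witTl N m L ⟨i.1, i.2.1⟩)
    (fun _ _ => rfl) Z w

/-- Polynomials in the Hecke operators on forms lie in the Hecke algebra. -/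
theorem coe_lift_heckeT (Z : FreeAlgebra ℤ (Idx N S)) :
    ((FreeAlgebra.lift ℤ (fun i : Idx N S =>
        (CuspForm.heckeAlgebra.T i.2.1 i.2.2.1 i.2.2.2 : CuspForm.heckeAlgebra N 2 (↑S : Set ℕ))) Z :
      CuspForm.heckeAlgebra N 2 (↑S : Set ℕ)) : Module.End ℂ (CuspForm (Gamma0 N) 2)) =
      FreeAlgebra.lift ℤ (tForm N S) Z := by
  have h : (CuspForm.heckeAlgebra N 2 (↑S : Set ℕ)).val.comp
      (FreeAlgebra.lift ℤ (fun i : Idx N S =>
        (CuspForm.heckeAlgebra.T i.2.1 i.2.2.1 i.2.2.2 : CuspForm.heckeAlgebra N 2 (↑S : Set ℕ)))) =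
      FreeAlgebra.lift ℤ (tForm N S) := by
    refine FreeAlgebra.hom_ext (funext fun i => ?_)
    simp only [Function.comp_apply, AlgHom.comp_apply, FreeAlgebra.lift_ι_apply]
    rfl
  exact congrArg (fun f : FreeAlgebra ℤ (Idx N S) →ₐ[ℤ] Module.End ℂ (CuspForm (Gamma0 N) 2) => f Z) h

/-- **Faithfulness of the witness module** at depth `n`. -/
theorem faith_witOf (hp : p.Prime) (hpS : p ∈ S) (hNS : ∀ q : ℕ, q.Prime → q ∣ N → q ∈ S)
    (hq : q.Prime) (hqS : q ∉ S) (M : ℕ) (L : IntermediateField ℚ Qb)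
    (hLfin : FiniteDimensional ℚ L) (hL : ∀ g : GQ, ∀ c ∈ L, g c ∈ L)
    (Ψ : H27.Lam N →+ JZero N)
    (hΨker : ∀ χ : H27.Lam N, Ψ χ = 0 → ∃ χ' : H27.Lam N, χ = (p ^ M) • χ')
    (hΨT : ∀ ℓ : Nat.Primes, ¬ (ℓ : ℕ) ∣ N → ∀ χ χ' : H27.Lam N,
      H06.IsHeckeTr N ℓ (χ : Additive (Gamma0 N) →+ ℤ) (χ' : Additive (Gamma0 N) →+ ℤ) →
        heckeOperatorBar N ℓ (Ψ χ) = Ψ χ')
    (hΨW : ∀ χ : H27.Lam N, Ψ χ ∈ witSub N (p ^ M) L)
    (tΛ : Idx N S → Module.End ℤ (H27.Lam N))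
    (htΛ : ∀ (i : Idx N S) (χ : H27.Lam N),
      H06.IsHeckeTr N i.1 (χ : Additive (Gamma0 N) →+ ℤ)
        ((tΛ i χ : H27.Lam N) : Additive (Gamma0 N) →+ ℤ))
    (n : ℕ)
    (hsat : ∀ P : FreeAlgebra ℤ (Idx N S),
      (∀ x : H27.Lam N, ∃ y : H27.Lam N, FreeAlgebra.lift ℤ tΛ P x = ((p : ℤ) ^ M) • y) →
      ∃ (e : ℤ) (Q : FreeAlgebra ℤ (Idx N S)), IsCoprime e (p : ℤ) ∧
        e • FreeAlgebra.lift ℤ (tForm N S) P =
          ((p : ℤ) ^ n) • FreeAlgebra.lift ℤ (tForm N S) Q) :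
    Faith N (witOf hp hpS hNS hq hqS M L hLfin hL) n := by
  intro ℓ₁ ℓ₂ h₁ h₂ h₁N h₂N h₁S h₂S j₁ j₂ hD
  let i₁ : Idx N S := ⟨ℓ₁, h₁, h₁N, h₁S⟩
  let i₂ : Idx N S := ⟨ℓ₂, h₂, h₂N, h₂S⟩
  have hPW : FreeAlgebra.lift ℤ (fun i : Idx N S => witTl N (p ^ M) L ⟨i.1, i.2.1⟩)
      (dick (FreeAlgebra.ι ℤ i₁) (ℓ₁ : ℤ) j₁ - dick (FreeAlgebra.ι ℤ i₂) (ℓ₂ : ℤ) j₂) = 0 :=
    (lift_dick_sub (fun i : Idx N S => witTl N (p ^ M) L ⟨i.1, i.2.1⟩) i₁ i₂ (ℓ₁ : ℤ) (ℓ₂ : ℤ)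
      j₁ j₂).trans (sub_eq_zero.mpr hD)
  obtain ⟨e, Q, hcop, hQ⟩ := hsat _ (fun x => by
    obtain ⟨y, hy⟩ := exists_smul_of_lift_eq_zero (witSub N (p ^ M) L) Ψ tΛ (tJ N S)
      (fun i : Idx N S => witTl N (p ^ M) L ⟨i.1, i.2.1⟩)
      (fun i x => (hΨT ⟨i.1, i.2.1⟩ i.2.2.1 x _ (htΛ i x)).symm) (fun _ _ => rfl) hΨW (p ^ M)
      hΨker _ hPW x
    exact ⟨y, hy.trans (by rw [Nat.cast_pow])⟩)
  refine ⟨e, FreeAlgebra.lift ℤ (fun i : Idx N S =>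
    (CuspForm.heckeAlgebra.T i.2.1 i.2.2.1 i.2.2.2 : CuspForm.heckeAlgebra N 2 (↑S : Set ℕ))) Q,
    hcop, ?_⟩
  rw [lift_dick_sub] at hQ
  have e1 := map_dick (CuspForm.heckeAlgebra N 2 (↑S : Set ℕ)).val.toRingHom
    (CuspForm.heckeAlgebra.T h₁ h₁N h₁S) (ℓ₁ : ℤ) j₁
  have e2 := map_dick (CuspForm.heckeAlgebra N 2 (↑S : Set ℕ)).val.toRingHom
    (CuspForm.heckeAlgebra.T h₂ h₂N h₂S) (ℓ₂ : ℤ) j₂
  apply Subtype.ext
  have g1 : ((e • (dick (CuspForm.heckeAlgebra.T h₁ h₁N h₁S :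
      CuspForm.heckeAlgebra N 2 (↑S : Set ℕ)) (ℓ₁ : ℤ) j₁ -
      dick (CuspForm.heckeAlgebra.T h₂ h₂N h₂S : CuspForm.heckeAlgebra N 2 (↑S : Set ℕ))
        (ℓ₂ : ℤ) j₂) : CuspForm.heckeAlgebra N 2 (↑S : Set ℕ)) :
      Module.End ℂ (CuspForm (Gamma0 N) 2)) =
      e • (dick (tForm N S i₁) (ℓ₁ : ℤ) j₁ - dick (tForm N S i₂) (ℓ₂ : ℤ) j₂) := by
    have := congrArg (fun z => e • z) (congrArg₂ (fun a b => a - b) e1 e2)
    exact this
  have g2 : (((((p : ℤ) ^ n) • FreeAlgebra.lift ℤ (fun i : Idx N S =>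
      (CuspForm.heckeAlgebra.T i.2.1 i.2.2.1 i.2.2.2 : CuspForm.heckeAlgebra N 2 (↑S : Set ℕ))) Q) :
      CuspForm.heckeAlgebra N 2 (↑S : Set ℕ)) : Module.End ℂ (CuspForm (Gamma0 N) 2)) =
      ((p : ℤ) ^ n) • FreeAlgebra.lift ℤ (tForm N S) Q := by
    have := congrArg (fun z => ((p : ℤ) ^ n) • z) (coe_lift_heckeT (N := N) (S := S) Q)
    exact this
  rw [g1, g2]
  exact hQ

end Faith

end Fermat.Agent.S31.H69
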