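import Mathlib
import Fermat.Prelude.Def_CuspForm_HeckeGaloisRepDatum
import Fermat.Agent.S31.Wit_helper69

/-!
# S31 (helper69): the abstract top

`isUnramifiedAt_of_witness` : the frozen statement S31 from the Frobenius-power leaf, the two
cyclotomic leaves and a faithful witness module at every depth.
-/

set_option autoImplicit false

namespace Fermat.Agent.S31.H69

open Module Polynomial
open scoped TensorProduct

section Main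

variable {p : ℕ} {N : ℕ} [NeZero N] {S : Finset ℕ}
  {𝒪 : Type} [CommRing 𝒪] [IsDomain 𝒪] [IsDiscreteValuationRing 𝒪]
  [IsAdicComplete (IsLocalRing.maximalIdeal 𝒪) 𝒪]
  {θ : CuspForm.heckeAlgebra N 2 (↑S : Set ℕ) →+* IsLocalRing.ResidueField 𝒪}
  {T : Type} [CommRing T] [IsLocalRing T] [IsNoetherianRing T]
  [IsAdicComplete (IsLocalRing.maximalIdeal T) T] [Algebra 𝒪 T] [IsLocalHom (algebraMap 𝒪 T)]
  [Module.Finite 𝒪 T] [Module.Free 𝒪 T]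

/-- The data attached to one application of (FD). -/
theorem frob_package (hp : p.Prime) (hpS : p ∈ S) (hNS : ∀ q : ℕ, q.Prime → q ∣ N → q ∈ S)
    (H : CuspForm.HeckeGaloisRepDatum N (↑S : Set ℕ) 𝒪 θ T)
    (FD : FrobPower) (C1 : CycFrob) (n : ℕ) {q M : ℕ} (wit : Wit S p q M)
    (Ln LW K : IntermediateField ℚ Qb) [FiniteDimensional ℚ K] [IsGalois ℚ K]
    (hLn : ∀ σ : GQ, (∀ x ∈ Ln, σ x = x) →
      ∀ v : H.ρ.V, H.ρ.ρ σ v - v ∈ (IsLocalRing.maximalIdeal T ^ n) • (⊤ : Submodule T H.ρ.V))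
    (hLW : ∀ σ : GQ, (∀ x ∈ LW, σ x = x) → wit.act σ = 1)
    (hLnK : Ln ≤ K) (hLWK : LW ≤ K) (ζ : Qb) (hζK : ζ ∈ K) (hζ : ζ ^ (p ^ M) = 1) (h : GQ) :
    ∃ (ℓ : ℕ) (hℓ : ℓ.Prime) (hℓN : ¬ ℓ ∣ N) (hℓS : ℓ ∉ (↑S : Set ℕ)) (j : ℕ),
      LinearMap.trace T H.ρ.V (H.ρ.ρ h) -
          H.π (dick (CuspForm.heckeAlgebra.T hℓ hℓN hℓS : CuspForm.heckeAlgebra N 2 (↑S : Set ℕ))
            (ℓ : ℤ) j) ∈ IsLocalRing.maximalIdeal T ^ n ∧
      dick (wit.Tl ⟨ℓ, hℓ⟩) (ℓ : ℤ) j = wit.act h + ((ℓ : ℤ) ^ j) • wit.act h⁻¹ ∧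
      h ζ = ζ ^ (ℓ ^ j) := by
  obtain ⟨ℓ, hℓ, hℓS, A, hA, s, hs, j, hj⟩ := FD K h S
  have hℓN : ¬ ℓ ∣ N := fun hd => hℓS (hNS ℓ hℓ hd)
  have hℓS' : ℓ ∉ (↑S : Set ℕ) := fun hmem => hℓS (Finset.mem_coe.mp hmem)
  have hℓp : ℓ ≠ p := fun e => hℓS (e ▸ hpS)
  have hfix : ∀ x ∈ K, ((s ^ j)⁻¹ * h) x = x := by
    intro x hx
    rw [AlgEquiv.mul_apply, ← hj x hx]
    exact (s ^ j).symm_apply_apply x
  refine ⟨ℓ, hℓ, hℓN, hℓS', j, ?_, ?_, ?_⟩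
  · -- trace
    have h1 := trace_sub_trace_mem H.ρ.ρ (IsLocalRing.maximalIdeal T ^ n) h (s ^ j)
      (hLn _ fun x hx => hfix x (hLnK hx))
    have hchar := H.charpoly_frob ℓ hℓ hℓN hℓS' A hA s hs
    have hchar' : LinearMap.charpoly (H.ρ.ρ s) =
        X ^ 2 - C (H.π (CuspForm.heckeAlgebra.T hℓ hℓN hℓS')) * X + C (((ℓ : ℤ) : T)) := by
      rw [hchar, Int.cast_natCast]
    have h2 := trace_pow_eq_dick H.ρ.finrank_eq (H.ρ.ρ s) _ (ℓ : ℤ) hchar' j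
    rw [map_pow, h2, ← map_dick] at h1
    exact h1
  · -- witness module
    have hact : wit.act ((s ^ j)⁻¹ * h) = 1 := hLW _ fun x hx => hfix x (hLWK hx)
    have hsu : wit.act s * wit.act s⁻¹ = 1 := by rw [← map_mul, mul_inv_cancel, map_one]
    have hus : wit.act s⁻¹ * wit.act s = 1 := by rw [← map_mul, inv_mul_cancel, map_one]
    have hd := dick_eq_pow_add (wit.act s) (wit.act s⁻¹) (wit.Tl ⟨ℓ, hℓ⟩) (ℓ : ℤ) hsu hus
      (wit.quad ⟨ℓ, hℓ⟩ hℓS A hA s hs) j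
    have e1 : wit.act s ^ j = wit.act h := by
      have : wit.act h = wit.act (s ^ j) * wit.act ((s ^ j)⁻¹ * h) := by
        rw [← map_mul, mul_inv_cancel_left]
      rw [this, hact, mul_one, map_pow]
    have e2 : wit.act s⁻¹ ^ j = wit.act h⁻¹ := by
      have h3 : wit.act s⁻¹ ^ j = wit.act ((s ^ j)⁻¹) := by rw [← map_pow, inv_pow]
      have h4 : wit.act ((s ^ j)⁻¹) = wit.act ((s ^ j)⁻¹ * h) * wit.act h⁻¹ := by
        rw [← map_mul, mul_assoc, mul_inv_cancel, mul_one]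
      rw [h3, h4, hact, one_mul]
    rw [hd, e1, e2]
  · -- roots of unity
    have hm : ¬ ℓ ∣ p ^ M := fun hd =>
      hℓp ((Nat.prime_dvd_prime_iff_eq hℓ hp).mp (hℓ.dvd_of_dvd_pow hd))
    rw [← hj ζ hζK]
    exact frob_pow_root C1 (p ^ M) ℓ A hℓ hA hm s hs j ζ hζ


omit [IsAdicComplete (IsLocalRing.maximalIdeal 𝒪) 𝒪] [IsNoetherianRing T]
  [IsAdicComplete (IsLocalRing.maximalIdeal T) T] [Module.Finite 𝒪 T] [Module.Free 𝒪 T] in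
theorem natCast_p_mem_maximalIdeal (hp𝒪 : (p : 𝒪) ∈ IsLocalRing.maximalIdeal 𝒪) :
    (p : T) ∈ IsLocalRing.maximalIdeal T := by
  have h1 : (p : T) = algebraMap 𝒪 T (p : 𝒪) := by rw [map_natCast]
  rw [h1, IsLocalRing.mem_maximalIdeal]
  exact map_nonunit (algebraMap 𝒪 T) _ ((IsLocalRing.mem_maximalIdeal _).mp hp𝒪)

/-- The key congruence: `tr ρ(g τ) ≡ tr ρ(g)` modulo `𝔪ⁿ` for `τ` in an inertia group at `q`. -/
theorem trace_mul_inertia_sub_mem (hp : p.Prime)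
    (hp𝒪 : (p : 𝒪) ∈ IsLocalRing.maximalIdeal 𝒪) (hpS : p ∈ S)
    (hNS : ∀ q : ℕ, q.Prime → q ∣ N → q ∈ S)
    (H : CuspForm.HeckeGaloisRepDatum N (↑S : Set ℕ) 𝒪 θ T)
    (q : ℕ) (hq : q.Prime) (hqS : q ∉ S)
    (FD : FrobPower) (C1 : CycFrob) (C2 : CycInertia) (n : ℕ) {M : ℕ} (wit : Wit S p q M)
    (hF : Faith N wit n) (P : ValuationSubring Qb) (hP : P.LiesOverPrime q) (τ : GQ)
    (hτ : τ ∈ P.inertiaSubgroupIn ℚ) (g : GQ) :
    LinearMap.trace T H.ρ.V (H.ρ.ρ (g * τ)) - LinearMap.trace T H.ρ.V (H.ρ.ρ g) ∈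
      IsLocalRing.maximalIdeal T ^ n := by
  obtain ⟨Ln, hLnfin, hLn⟩ := H.ρ.isAdicContinuous n
  obtain ⟨LW, hLWfin, hLW⟩ := wit.level
  have hpM : 0 < p ^ M := pow_pos hp.pos M
  have hAlgCl : IsAlgClosure ℚ Qb := AlgebraicClosure.instIsAlgClosure ℚ
  have hAlg : Algebra.IsAlgebraic ℚ Qb := AlgebraicClosure.isAlgebraic ℚ
  have hNormal : Normal ℚ Qb := IsAlgClosure.normal ℚ Qb
  have : NeZero ((p ^ M : ℕ) : Qb) := ⟨by exact_mod_cast hpM.ne'⟩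
  obtain ⟨ζ, hζ⟩ := HasEnoughRootsOfUnity.exists_primitiveRoot Qb (p ^ M)
  have : FiniteDimensional ℚ Ln := hLnfin
  have : FiniteDimensional ℚ LW := hLWfin
  have : FiniteDimensional ℚ (IntermediateField.adjoin ℚ ({ζ} : Set Qb)) :=
    IntermediateField.adjoin.finiteDimensional (Algebra.IsIntegral.isIntegral ζ)
  let K0 : IntermediateField ℚ Qb := Ln ⊔ LW ⊔ IntermediateField.adjoin ℚ ({ζ} : Set Qb)
  let K : IntermediateField ℚ Qb := IntermediateField.normalClosure ℚ K0 Qb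
  have : FiniteDimensional ℚ K := normalClosure.is_finiteDimensional ℚ K0 Qb
  have : Normal ℚ K := normalClosure.normal ℚ K0 Qb
  have : IsGalois ℚ K := isGalois_iff.mpr ⟨inferInstance, inferInstance⟩
  have hK0K : K0 ≤ K := IntermediateField.le_normalClosure K0
  have hLnK : Ln ≤ K := le_trans (le_trans le_sup_left le_sup_left) hK0K
  have hLWK : LW ≤ K := le_trans (le_trans le_sup_right le_sup_left) hK0K
  have hζK : ζ ∈ K := hK0K (le_sup_right (a := Ln ⊔ LW)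
    (IntermediateField.subset_adjoin ℚ ({ζ} : Set Qb) (Set.mem_singleton ζ)))
  have hζ1 : ζ ^ (p ^ M) = 1 := hζ.pow_eq_one
  obtain ⟨ℓ₁, h₁, h₁N, h₁S, j₁, ht₁, hd₁, hz₁⟩ :=
    frob_package hp hpS hNS H FD C1 n wit Ln LW K hLn hLW hLnK hLWK ζ hζK hζ1 g
  obtain ⟨ℓ₂, h₂, h₂N, h₂S, j₂, ht₂, hd₂, hz₂⟩ :=
    frob_package hp hpS hNS H FD C1 n wit Ln LW K hLn hLW hLnK hLWK ζ hζK hζ1 (g * τ)
  -- inertia is trivial on the witness module and on the roots of unity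
  have hqp : q ≠ p := fun e => hqS (e ▸ hpS)
  have hqm : ¬ q ∣ p ^ M := fun hd =>
    hqp ((Nat.prime_dvd_prime_iff_eq hq hp).mp (hq.dvd_of_dvd_pow hd))
  have hτ1 : wit.act τ = 1 := wit.unr P hP τ hτ
  have hτ2 : wit.act τ⁻¹ = 1 := wit.unr P hP τ⁻¹ (Subgroup.inv_mem _ hτ)
  have hτζ : τ ζ = ζ := C2 (p ^ M) q P hq hP hqm τ hτ ζ hζ1
  have hpow : ζ ^ (ℓ₁ ^ j₁) = ζ ^ (ℓ₂ ^ j₂) := by
    rw [← hz₁, ← hz₂, AlgEquiv.mul_apply, hτζ]
  obtain ⟨c, hc⟩ := exists_int_mul_of_pow_eq hpM hζ hpow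
  -- the two Dickson operators agree on the witness module
  have hkill : ∀ y : Module.End ℤ wit.W, ((p ^ M : ℕ) : ℤ) • y = 0 := by
    intro y
    ext w
    rw [LinearMap.smul_apply, LinearMap.zero_apply, natCast_zsmul]
    exact wit.tors (y w)
  have hdd : dick (wit.Tl ⟨ℓ₁, h₁⟩) (ℓ₁ : ℤ) j₁ = dick (wit.Tl ⟨ℓ₂, h₂⟩) (ℓ₂ : ℤ) j₂ := by
    rw [hd₁, hd₂, map_mul, hτ1, mul_one, mul_inv_rev, map_mul, hτ2, one_mul]
    congr 1
    have hc' : ((ℓ₁ : ℤ) ^ j₁) = ((ℓ₂ : ℤ) ^ j₂) + ((p ^ M : ℕ) : ℤ) * c := by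
      have : ((ℓ₁ ^ j₁ : ℕ) : ℤ) - ((ℓ₂ ^ j₂ : ℕ) : ℤ) = ((p ^ M : ℕ) : ℤ) * c := hc
      push_cast at this ⊢
      linarith
    rw [hc', add_smul, mul_comm, mul_smul, hkill, smul_zero, add_zero]
  obtain ⟨e, Q, hcop, hQ⟩ := hF ℓ₁ ℓ₂ h₁ h₂ h₁N h₂N h₁S h₂S j₁ j₂ hdd
  -- push the relation through `π`
  have hpT : (p : T) ∈ IsLocalRing.maximalIdeal T := natCast_p_mem_maximalIdeal hp𝒪
  have heunit : IsUnit ((e : ℤ) : T) := by
    obtain ⟨a, b, hab⟩ := hcop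
    have h1 : ((a : ℤ) : T) * ((e : ℤ) : T) = 1 - ((b : ℤ) : T) * (p : T) := by
      have := congrArg (Int.cast : ℤ → T) hab
      push_cast at this
      rw [← this]; ring
    have h2 : IsUnit (1 - ((b : ℤ) : T) * (p : T)) := by
      by_contra hnu
      have hmem : (1 - ((b : ℤ) : T) * (p : T)) ∈ IsLocalRing.maximalIdeal T :=
        (IsLocalRing.mem_maximalIdeal _).mpr hnu
      have hone : (1 : T) ∈ IsLocalRing.maximalIdeal T := by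
        have := (IsLocalRing.maximalIdeal T).add_mem hmem
          ((IsLocalRing.maximalIdeal T).mul_mem_left ((b : ℤ) : T) hpT)
        simp at this
      exact (Ideal.ne_top_iff_one _).mp (IsLocalRing.maximalIdeal.isMaximal T).ne_top hone
    rw [← h1] at h2
    exact isUnit_of_mul_isUnit_right h2
  have hπ : H.π (dick (CuspForm.heckeAlgebra.T h₁ h₁N h₁S :
        CuspForm.heckeAlgebra N 2 (↑S : Set ℕ)) (ℓ₁ : ℤ) j₁) -
      H.π (dick (CuspForm.heckeAlgebra.T h₂ h₂N h₂S :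
        CuspForm.heckeAlgebra N 2 (↑S : Set ℕ)) (ℓ₂ : ℤ) j₂) ∈ IsLocalRing.maximalIdeal T ^ n := by
    have h3 := congrArg H.π hQ
    rw [map_zsmul, map_zsmul, map_sub, zsmul_eq_mul, zsmul_eq_mul] at h3
    rw [← Ideal.unit_mul_mem_iff_mem _ heunit, h3]
    refine Ideal.mul_mem_right _ _ ?_
    push_cast
    exact Ideal.pow_mem_pow hpT n
  have hfin : LinearMap.trace T H.ρ.V (H.ρ.ρ (g * τ)) - LinearMap.trace T H.ρ.V (H.ρ.ρ g) =
      (LinearMap.trace T H.ρ.V (H.ρ.ρ (g * τ)) -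
          H.π (dick (CuspForm.heckeAlgebra.T h₂ h₂N h₂S :
            CuspForm.heckeAlgebra N 2 (↑S : Set ℕ)) (ℓ₂ : ℤ) j₂)) -
        (LinearMap.trace T H.ρ.V (H.ρ.ρ g) -
          H.π (dick (CuspForm.heckeAlgebra.T h₁ h₁N h₁S :
            CuspForm.heckeAlgebra N 2 (↑S : Set ℕ)) (ℓ₁ : ℤ) j₁)) -
        (H.π (dick (CuspForm.heckeAlgebra.T h₁ h₁N h₁S :
            CuspForm.heckeAlgebra N 2 (↑S : Set ℕ)) (ℓ₁ : ℤ) j₁) -
          H.π (dick (CuspForm.heckeAlgebra.T h₂ h₂N h₂S :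
            CuspForm.heckeAlgebra N 2 (↑S : Set ℕ)) (ℓ₂ : ℤ) j₂)) := by
    ring
  rw [hfin]
  exact Ideal.sub_mem _ (Ideal.sub_mem _ ht₂ ht₁) hπ

/-- **S31 from witness modules.** -/
theorem isUnramifiedAt_of_witness (hp : p.Prime)
    (hp𝒪 : (p : 𝒪) ∈ IsLocalRing.maximalIdeal 𝒪) (hpS : p ∈ S)
    (hNS : ∀ q : ℕ, q.Prime → q ∣ N → q ∈ S)
    (H : CuspForm.HeckeGaloisRepDatum N (↑S : Set ℕ) 𝒪 θ T)
    (q : ℕ) (hq : q.Prime) (hqS : q ∉ S)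
    (FD : FrobPower) (C1 : CycFrob) (C2 : CycInertia)
    (hwit : ∀ n : ℕ, ∃ (M : ℕ) (wit : Wit S p q M), Faith N wit n) :
    H.ρ.IsUnramifiedAt q := by
  intro P hP τ hτ
  have key : ∀ g : GQ, LinearMap.trace T H.ρ.V (H.ρ.ρ g * (H.ρ.ρ τ - 1)) = 0 := by
    intro g
    rw [mul_sub, mul_one, ← map_mul, map_sub]
    refine IsHausdorff.haus' (I := IsLocalRing.maximalIdeal T) _ fun n => ?_
    rw [SModEq.zero, smul_eq_mul, Ideal.mul_top]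
    obtain ⟨M, wit, hF⟩ := hwit n
    exact trace_mul_inertia_sub_mem hp hp𝒪 hpS hNS H q hq hqS FD C1 C2 n wit hF P hP τ hτ g
  have h0 := eq_zero_of_forall_trace_mul_eq_zero
    (K := AlgebraicClosure (IsLocalRing.ResidueField T)) H.ρ.finrank_eq H.ρ.ρ
    H.residual_absIrr (H.ρ.ρ τ - 1) key
  exact sub_eq_zero.mp h0

end Main

end Fermat.Agent.S31.H69
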