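import Mathlib
import Fermat.Prelude.Def_CuspForm_HeckeGaloisRepDatum
import Fermat.Agent.S31.Top_helper69
import Fermat.Agent.S31.Faith_helper69

/-!
# S31, layer 2d (helper69): witness modules from the Kummer class maps, and the top reduction

`exists_wit_faith` : from (TR-HOM), (TR-PAR) and the Kummer class maps `Ψ_m` (all `m ≠ 0`), a
faithful witness module at every depth.  `isUnramifiedAt_of_psi` : the frozen S31 statement from
the named leaves.
-/

set_option autoImplicit false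

namespace Fermat.Agent.S31.H69

open ModularCurve ModularCurve.Period CongruenceSubgroup
open Fermat.Agent.S29 Fermat.Agent.S21
open scoped MatrixGroups

section Assembly

variable {N : ℕ} [NeZero N] {S : Finset ℕ} {p q : ℕ}

/-- **Witness modules at every depth.** -/
theorem exists_wit_faith (hp : p.Prime) (hpS : p ∈ S)
    (hNS : ∀ q : ℕ, q.Prime → q ∣ N → q ∈ S) (hq : q.Prime) (hqS : q ∉ S)
    (TH : TrHom N) (TP : TrPar N) (hPsi : ∀ m : ℕ, m ≠ 0 → H27.PsiStmt N m) (n : ℕ) :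
    ∃ (M : ℕ) (wit : Wit S p q M), Faith N wit n := by
  classical
  obtain ⟨tΛ, htΛ, c, hc⟩ := exists_sat_lam N TH TP S p hp
  obtain ⟨Ψ, hΨtors, hΨker, hΨT⟩ := hPsi (p ^ (n + c)) (pow_ne_zero _ hp.ne_zero)
  obtain ⟨r, ⟨b⟩⟩ := exists_basis_lam N
  obtain ⟨K0, hK0fin, hK0⟩ :=
    H32.exists_numberField_stab_finset N (Finset.univ.image fun i => Ψ (b i))
  have hAlgCl : IsAlgClosure ℚ Qb := AlgebraicClosure.instIsAlgClosure ℚ
  have hAlg : Algebra.IsAlgebraic ℚ Qb := AlgebraicClosure.isAlgebraic ℚ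
  have hNormal : Normal ℚ Qb := IsAlgClosure.normal ℚ Qb
  have : FiniteDimensional ℚ K0 := hK0fin
  let L : IntermediateField ℚ Qb := IntermediateField.normalClosure ℚ K0 Qb
  have hLfin : FiniteDimensional ℚ L := normalClosure.is_finiteDimensional ℚ K0 Qb
  have hLn : Normal ℚ L := normalClosure.normal ℚ K0 Qb
  have hL : ∀ g : GQ, ∀ c ∈ L, g c ∈ L := by
    intro g c hc
    have h1 := (IntermediateField.normal_iff_forall_map_le' (F := ℚ) (K := L)).mp hLn g
    exact h1 ⟨c, hc, rfl⟩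
  have hΨW : ∀ χ : H27.Lam N, Ψ χ ∈ witSub N (p ^ (n + c)) L := by
    intro χ
    refine ⟨hΨtors χ, fun σ hσ => ?_⟩
    have hσ0 : ∀ c ∈ K0, σ c = c := fun c hc =>
      hσ c (IntermediateField.le_normalClosure K0 hc)
    have hb : ∀ i, σ • Ψ (b i) = Ψ (b i) := fun i =>
      hK0 σ hσ0 _ (Finset.mem_image_of_mem _ (Finset.mem_univ i))
    have hmem : χ ∈ Submodule.span ℤ (Set.range b) := by
      rw [b.span_eq]
      trivial
    refine Submodule.span_induction ?_ ?_ ?_ ?_ hmem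
    · rintro _ ⟨i, rfl⟩
      exact hb i
    · rw [map_zero]
      exact (galHom N σ).map_zero
    · intro x y _ _ hx hy
      rw [map_add]
      have h := (galHom N σ).map_add (Ψ x) (Ψ y)
      rw [galHom_apply, galHom_apply, galHom_apply] at h
      rw [h, hx, hy]
    · intro a x _ hx
      rw [map_zsmul]
      have h := map_zsmul (galHom N σ) a (Ψ x)
      rw [galHom_apply, galHom_apply] at h
      rw [h, hx]
  exact ⟨n + c, witOf hp hpS hNS hq hqS (n + c) L hLfin hL,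
    faith_witOf hp hpS hNS hq hqS (n + c) L hLfin hL Ψ hΨker hΨT hΨW tΛ htΛ n (hc n)⟩

end Assembly

section Top

variable {p : ℕ} {N : ℕ} [NeZero N] {S : Finset ℕ}
  {𝒪 : Type} [CommRing 𝒪] [IsDomain 𝒪] [IsDiscreteValuationRing 𝒪]
  [IsAdicComplete (IsLocalRing.maximalIdeal 𝒪) 𝒪]
  {θ : CuspForm.heckeAlgebra N 2 (↑S : Set ℕ) →+* IsLocalRing.ResidueField 𝒪}
  {T : Type} [CommRing T] [IsLocalRing T] [IsNoetherianRing T]
  [IsAdicComplete (IsLocalRing.maximalIdeal T) T] [Algebra 𝒪 T] [IsLocalHom (algebraMap 𝒪 T)]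
  [Module.Finite 𝒪 T] [Module.Free 𝒪 T]

/-- **S31 from the named leaves**: the Frobenius-power leaf (FD), the two cyclotomic leaves, the
two transfer leaves, and the Kummer class maps (PSI) for every modulus. -/
theorem isUnramifiedAt_of_psi (hp : p.Prime)
    (hp𝒪 : (p : 𝒪) ∈ IsLocalRing.maximalIdeal 𝒪) (hpS : p ∈ S)
    (hNS : ∀ q : ℕ, q.Prime → q ∣ N → q ∈ S)
    (H : CuspForm.HeckeGaloisRepDatum N (↑S : Set ℕ) 𝒪 θ T)
    (q : ℕ) (hq : q.Prime) (hqS : q ∉ S)
    (FD : FrobPower) (C1 : CycFrob) (C2 : CycInertia) (TH : TrHom N) (TP : TrPar N)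
    (hPsi : ∀ m : ℕ, m ≠ 0 → H27.PsiStmt N m) :
    H.ρ.IsUnramifiedAt q :=
  isUnramifiedAt_of_witness hp hp𝒪 hpS hNS H q hq hqS FD C1 C2
    (exists_wit_faith hp hpS hNS hq hqS TH TP hPsi)

end Top

end Fermat.Agent.S31.H69
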