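import Fermat.Statements.S31
import Fermat.Agent.S31.Asm_helper69
import Fermat.Agent.S29.FrobDensity_helper86
import Fermat.Agent.S29.Cyclo_helper44

/-!
# S31 (helper69): the landed leaves, and the last reduction

`frobPower`, `cycFrob`, `cycInertia` : the Frobenius-power leaf and the two cyclotomic leaves of
`isUnramifiedAt_of_witness`, from the landed S29 nodes (`H86.frobenius_power`,
`H44.frob_root_of_unity`, `H44.inertia_root_of_unity`).

`result_of_psi` : the frozen statement S31 from the two transfer leaves and the Kummer class maps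
`Ψ_m` for every modulus `m ≠ 0`.
-/

set_option autoImplicit false

namespace Fermat.Agent.S31.H69

open Fermat.Agent.S29

theorem frobPower : FrobPower := fun K _ _ g S0 => H86.frobenius_power K g S0

theorem cycFrob : CycFrob := fun m _ A hℓ hA hm σ hσ ζ hζ =>
  H44.frob_root_of_unity A hℓ hA σ hσ m hm ζ hζ

theorem cycInertia : CycInertia := fun m _ A hℓ hA hm τ hτ ζ hζ =>
  H44.inertia_root_of_unity A hℓ hA τ hτ m hm ζ hζ

section

variable {p : ℕ} {N : ℕ} [NeZero N] {S : Finset ℕ}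
  {𝒪 : Type} [CommRing 𝒪] [IsDomain 𝒪] [IsDiscreteValuationRing 𝒪]
  [IsAdicComplete (IsLocalRing.maximalIdeal 𝒪) 𝒪]
  {θ : CuspForm.heckeAlgebra N 2 (↑S : Set ℕ) →+* IsLocalRing.ResidueField 𝒪}
  {T : Type} [CommRing T] [IsLocalRing T] [IsNoetherianRing T]
  [IsAdicComplete (IsLocalRing.maximalIdeal T) T] [Algebra 𝒪 T] [IsLocalHom (algebraMap 𝒪 T)]
  [Module.Finite 𝒪 T] [Module.Free 𝒪 T]

/-- **The frozen statement S31** from (TR-HOM), (TR-PAR) and (PSI). -/
theorem result_of_psi (TH : ∀ N : ℕ, TrHom N) (TP : ∀ N : ℕ, TrPar N)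
    (hPsi : ∀ (N : ℕ) [NeZero N] (m : ℕ), m ≠ 0 → H27.PsiStmt N m)
    (hp : p.Prime)
    (hp𝒪 : (p : 𝒪) ∈ IsLocalRing.maximalIdeal 𝒪) (hpS : p ∈ S)
    (hNS : ∀ q : ℕ, q.Prime → q ∣ N → q ∈ S)
    (H : CuspForm.HeckeGaloisRepDatum N (↑S : Set ℕ) 𝒪 θ T)
    (q : ℕ) (hq : q.Prime) (hqS : q ∉ S) :
    H.ρ.IsUnramifiedAt q :=
  isUnramifiedAt_of_psi hp hp𝒪 hpS hNS H q hq hqS frobPower cycFrob cycInertia (TH N) (TP N)
    (hPsi N)

end

end Fermat.Agent.S31.H69
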