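import Fermat.Statements.S31
import Fermat.Agent.S31.Leaves_helper69
import Fermat.Agent.S29.TransferHom_helper6
import Fermat.Agent.S29.TransferPar_helper70

/-!
# S31 (helper69): the transfer leaves, and the reduction to the Kummer class maps

`trHom`, `trPar` : the two transfer leaves from the landed `H06.exists_isHeckeTr` and
`H70.IsHeckeTr.isParabolicHom`.

`result_of_psiStmt` : the frozen statement S31 from the Kummer class maps `Ψ_m` for every modulus
`m ≠ 0` alone.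
-/

set_option autoImplicit false

namespace Fermat.Agent.S31.H69

open Fermat.Agent.S29

theorem trHom (N : ℕ) : TrHom N := fun _ hℓ hℓN _ _ χ => H06.exists_isHeckeTr hℓ hℓN χ

theorem trPar (N : ℕ) : TrPar N := fun _ hℓ hℓN _ _ h hχ =>
  H70.IsHeckeTr.isParabolicHom hℓ hℓN h hχ

section

variable {p : ℕ} {N : ℕ} [NeZero N] {S : Finset ℕ}
  {𝒪 : Type} [CommRing 𝒪] [IsDomain 𝒪] [IsDiscreteValuationRing 𝒪]
  [IsAdicComplete (IsLocalRing.maximalIdeal 𝒪) 𝒪]
  {θ : CuspForm.heckeAlgebra N 2 (↑S : Set ℕ) →+* IsLocalRing.ResidueField 𝒪}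
  {T : Type} [CommRing T] [IsLocalRing T] [IsNoetherianRing T]
  [IsAdicComplete (IsLocalRing.maximalIdeal T) T] [Algebra 𝒪 T] [IsLocalHom (algebraMap 𝒪 T)]
  [Module.Finite 𝒪 T] [Module.Free 𝒪 T]

/-- **The frozen statement S31** from (PSI) alone. -/
theorem result_of_psiStmt
    (hPsi : ∀ (N : ℕ) [NeZero N] (m : ℕ), m ≠ 0 → H27.PsiStmt N m)
    (hp : p.Prime)
    (hp𝒪 : (p : 𝒪) ∈ IsLocalRing.maximalIdeal 𝒪) (hpS : p ∈ S)
    (hNS : ∀ q : ℕ, q.Prime → q ∣ N → q ∈ S)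
    (H : CuspForm.HeckeGaloisRepDatum N (↑S : Set ℕ) 𝒪 θ T)
    (q : ℕ) (hq : q.Prime) (hqS : q ∉ S) :
    H.ρ.IsUnramifiedAt q :=
  result_of_psi trHom trPar hPsi hp hp𝒪 hpS hNS H q hq hqS

end

end Fermat.Agent.S31.H69
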